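import Mathlib

set_option autoImplicit false

/-! ## Task G: Hermite normal form / coset decomposition -/

namespace Fermat.Agent.S22Lib

open Matrix MatrixGroups ModularGroup

/-- For an integer matrix of positive determinant there is `g ∈ SL(2,ℤ)` with `g⁻¹ * A` upper
triangular with positive diagonal. -/
theorem exists_SL2Z_mul_eq_upper (A : Matrix (Fin 2) (Fin 2) ℤ) (hA : 0 < A.det) :
    ∃ (g : SL(2, ℤ)) (a b d : ℤ), 0 < a ∧ 0 < d ∧
      A = (g : Matrix (Fin 2) (Fin 2) ℤ) * !![a, b; 0, d] := by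
  let A' : FixedDetMatrix (Fin 2) ℤ A.det := ⟨A, rfl⟩
  suffices h : ∃ (g : SL(2, ℤ)) (a b d : ℤ), 0 < a ∧ 0 < d ∧
      A'.1 = (g : Matrix (Fin 2) (Fin 2) ℤ) * !![a, b; 0, d] from h
  refine FixedDetMatrices.induction_on (C := fun B : FixedDetMatrix (Fin 2) ℤ A.det =>
    ∃ (g : SL(2, ℤ)) (a b d : ℤ), 0 < a ∧ 0 < d ∧
      B.1 = (g : Matrix (Fin 2) (Fin 2) ℤ) * !![a, b; 0, d]) hA.ne' ?_ ?_ ?_
  · intro B h10 h00 _ _
    have hdet : B.1 0 0 * B.1 1 1 = A.det := by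
      have := B.2
      rw [Matrix.det_fin_two, h10, mul_zero, sub_zero] at this
      exact this
    have h11 : 0 < B.1 1 1 := by
      by_contra hcon
      push Not at hcon
      have : B.1 0 0 * B.1 1 1 ≤ 0 := mul_nonpos_of_nonneg_of_nonpos h00.le hcon
      omega
    refine ⟨1, B.1 0 0, B.1 0 1, B.1 1 1, h00, h11, ?_⟩
    rw [Matrix.SpecialLinearGroup.coe_one, one_mul]
    ext i j
    fin_cases i <;> fin_cases j <;> simp [h10]
  · rintro B ⟨g, a, b, d, ha, hd, hB⟩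
    refine ⟨S * g, a, b, d, ha, hd, ?_⟩
    rw [FixedDetMatrices.smul_coe, hB, Matrix.SpecialLinearGroup.coe_mul, mul_assoc]
  · rintro B ⟨g, a, b, d, ha, hd, hB⟩
    refine ⟨T * g, a, b, d, ha, hd, ?_⟩
    rw [FixedDetMatrices.smul_coe, hB, Matrix.SpecialLinearGroup.coe_mul, mul_assoc]

/-- integer matrix with positive determinant as an element of `GL (Fin 2) ℝ` -/
noncomputable def intGL (A : Matrix (Fin 2) (Fin 2) ℤ) (hA : 0 < A.det) : GL (Fin 2) ℝ :=
  Matrix.GeneralLinearGroup.mkOfDetNeZero (A.map (Int.cast : ℤ → ℝ)) (by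
    have h : (A.map (Int.cast : ℤ → ℝ)).det = ((A.det : ℤ) : ℝ) := by
      have := (Int.castRingHom ℝ).map_det A
      simpa [RingHom.mapMatrix_apply] using this.symm
    rw [h]
    exact_mod_cast hA.ne')

theorem intGL_val (A : Matrix (Fin 2) (Fin 2) ℤ) (hA : 0 < A.det) :
    ((intGL A hA : GL (Fin 2) ℝ) : Matrix (Fin 2) (Fin 2) ℝ) = A.map (Int.cast : ℤ → ℝ) := rfl

theorem intGL_mul (A B : Matrix (Fin 2) (Fin 2) ℤ) (hA : 0 < A.det) (hB : 0 < B.det)
    (hAB : 0 < (A * B).det) :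
    intGL (A * B) hAB = intGL A hA * intGL B hB := by
  apply Units.ext
  rw [Units.val_mul, intGL_val, intGL_val, intGL_val]
  exact Matrix.map_mul (f := Int.castRingHom ℝ)

theorem intGL_coe_SL (g : SL(2, ℤ)) (hg : 0 < (g : Matrix (Fin 2) (Fin 2) ℤ).det) :
    intGL (g : Matrix (Fin 2) (Fin 2) ℤ) hg = Matrix.SpecialLinearGroup.mapGL ℝ g := by
  apply Units.ext
  rw [intGL_val, Matrix.SpecialLinearGroup.mapGL_coe_matrix]
  rfl

theorem intGL_det (A : Matrix (Fin 2) (Fin 2) ℤ) (hA : 0 < A.det) :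
    (intGL A hA).det.val = ((A.det : ℤ) : ℝ) := by
  rw [Matrix.GeneralLinearGroup.val_det_apply, intGL_val]
  have := (Int.castRingHom ℝ).map_det A
  simpa [RingHom.mapMatrix_apply] using this.symm

theorem intGL_det_pos (A : Matrix (Fin 2) (Fin 2) ℤ) (hA : 0 < A.det) :
    0 < (intGL A hA).det.val := by
  rw [intGL_det]
  exact_mod_cast hA

end Fermat.Agent.S22Lib
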