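import Mathlib
import Fermat.Prelude.Def_ModularForm_HeckeOperator
import Fermat.Agent.Lib.S22.Hermite

set_option autoImplicit false

/-! ## Task J: slash by upper triangular integer matrices preserves "cuspidal at infinity" -/

namespace Fermat.Agent.S22Lib

open UpperHalfPlane ModularForm Matrix MatrixGroups
open scoped ModularForm

theorem upper_det (a b d : ℤ) : (!![a, b; 0, d] : Matrix (Fin 2) (Fin 2) ℤ).det = a * d := by
  rw [Matrix.det_fin_two_of, mul_zero, sub_zero]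

theorem num_intGL_upper (a b d : ℤ)
    (hdet : 0 < (!![a, b; 0, d] : Matrix (Fin 2) (Fin 2) ℤ).det) (z : ℂ) :
    num (intGL !![a, b; 0, d] hdet) z = (a : ℂ) * z + (b : ℂ) := by
  simp [num, intGL_val]

theorem denom_intGL_upper (a b d : ℤ)
    (hdet : 0 < (!![a, b; 0, d] : Matrix (Fin 2) (Fin 2) ℤ).det) (z : ℂ) :
    denom (intGL !![a, b; 0, d] hdet) z = (d : ℂ) := by
  simp [denom, intGL_val]

theorem σ_intGL (A : Matrix (Fin 2) (Fin 2) ℤ) (hA : 0 < A.det) :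
    σ (intGL A hA) = .refl ℝ ℂ := by
  rw [σ, if_pos (intGL_det_pos A hA)]

theorem coe_intGL_upper_smul (a b d : ℤ)
    (hdet : 0 < (!![a, b; 0, d] : Matrix (Fin 2) (Fin 2) ℤ).det) (τ : ℍ) :
    ((intGL !![a, b; 0, d] hdet • τ : ℍ) : ℂ) = ((a : ℂ) * (τ : ℂ) + (b : ℂ)) / (d : ℂ) := by
  rw [coe_smul_of_det_pos (intGL_det_pos _ hdet), num_intGL_upper, denom_intGL_upper]

/-- Explicit formula for the slash action of an upper triangular integer matrix. -/
theorem slash_intGL_upper_apply (k : ℤ) (a b d : ℤ)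
    (hdet : 0 < (!![a, b; 0, d] : Matrix (Fin 2) (Fin 2) ℤ).det) (φ : ℍ → ℂ) (τ : ℍ) :
    (φ ∣[k] intGL !![a, b; 0, d] hdet) τ =
      φ (intGL !![a, b; 0, d] hdet • τ) * ((a : ℂ) * (d : ℂ)) ^ (k - 1) * (d : ℂ) ^ (-k) := by
  rw [ModularForm.slash_apply, σ_intGL, denom_intGL_upper, intGL_det, upper_det]
  have hpos : (0 : ℝ) < ((a * d : ℤ) : ℝ) := by
    have := hdet
    rw [upper_det] at this
    exact_mod_cast this
  rw [abs_of_pos hpos]
  simp only [ContinuousAlgEquiv.refl_apply]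
  push_cast
  rfl

theorem periodic_slash_upper (k : ℤ) (a b d : ℤ) (ha : 0 < a) (hd : 0 < d)
    (hdet : 0 < (!![a, b; 0, d] : Matrix (Fin 2) (Fin 2) ℤ).det)
    (φ : ℍ → ℂ) (h : ℕ) (hφ : Function.Periodic (φ ∘ ofComplex) (h : ℝ)) :
    Function.Periodic ((φ ∣[k] intGL !![a, b; 0, d] hdet) ∘ ofComplex)
      ((d.toNat * h : ℕ) : ℝ) := by
  intro z
  have hdC : (d : ℂ) ≠ 0 := by exact_mod_cast hd.ne'
  have hP : (((d.toNat * h : ℕ) : ℝ) : ℂ) = (d : ℂ) * (h : ℂ) := by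
    have hdnat : ((d.toNat : ℕ) : ℤ) = d := Int.toNat_of_nonneg hd.le
    push_cast
    congr 1
    exact_mod_cast congrArg (fun x : ℤ => (x : ℂ)) hdnat
  have him : (z + (((d.toNat * h : ℕ) : ℝ) : ℂ)).im = z.im := by
    rw [Complex.add_im, Complex.ofReal_im, add_zero]
  rcases lt_or_ge 0 z.im with hz | hz
  · have hz' : 0 < (z + (((d.toNat * h : ℕ) : ℝ) : ℂ)).im := by rw [him]; exact hz
    rw [comp_ofComplex_of_im_pos _ _ hz, comp_ofComplex_of_im_pos _ _ hz',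
      slash_intGL_upper_apply, slash_intGL_upper_apply]
    congr 2
    -- compare the two points of the upper half plane through `φ ∘ ofComplex`
    set τ : ℍ := ⟨z, hz⟩
    set τ' : ℍ := ⟨z + (((d.toNat * h : ℕ) : ℝ) : ℂ), hz'⟩
    have hcoe : ((intGL !![a, b; 0, d] hdet • τ' : ℍ) : ℂ) =
        ((intGL !![a, b; 0, d] hdet • τ : ℍ) : ℂ) + (a : ℂ) * ((h : ℝ) : ℂ) := by
      rw [coe_intGL_upper_smul, coe_intGL_upper_smul]
      change ((a : ℂ) * (z + (((d.toNat * h : ℕ) : ℝ) : ℂ)) + (b : ℂ)) / (d : ℂ) =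
        ((a : ℂ) * z + (b : ℂ)) / (d : ℂ) + (a : ℂ) * ((h : ℝ) : ℂ)
      rw [hP]
      push_cast
      field_simp
      ring
    have hper := (hφ.int_mul a) ((intGL !![a, b; 0, d] hdet • τ : ℍ) : ℂ)
    rw [comp_ofComplex] at hper
    rw [← hper, ← comp_ofComplex φ (intGL !![a, b; 0, d] hdet • τ'), hcoe]
  · have hz' : (z + (((d.toNat * h : ℕ) : ℝ) : ℂ)).im ≤ 0 := by rw [him]; exact hz
    exact comp_ofComplex_of_im_le_zero _ _ _ hz' hz

theorem heckeMatrix_eq_intGL {p : ℕ} (hp : p ≠ 0) (j : ℕ)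
    (hdet : 0 < (!![1, (j : ℤ); 0, (p : ℤ)] : Matrix (Fin 2) (Fin 2) ℤ).det) :
    heckeMatrix p j = intGL !![1, (j : ℤ); 0, (p : ℤ)] hdet := by
  apply Units.ext
  rw [val_heckeMatrix hp, intGL_val]
  ext i j
  fin_cases i <;> fin_cases j <;> simp

theorem heckeDiagMatrix_eq_intGL {p : ℕ} (hp : p ≠ 0)
    (hdet : 0 < (!![(p : ℤ), 0; 0, 1] : Matrix (Fin 2) (Fin 2) ℤ).det) :
    heckeDiagMatrix p = intGL !![(p : ℤ), 0; 0, 1] hdet := by
  apply Units.ext
  rw [val_heckeDiagMatrix hp, intGL_val]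
  ext i j
  fin_cases i <;> fin_cases j <;> simp

end Fermat.Agent.S22Lib
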