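import Mathlib

/-!
# Calculus of the normalised derivative `D = (2πi)⁻¹ d/dτ` on functions `ℍ → ℂ`

Iterates of `D`, linearity on holomorphic functions, and: `D^n χ = 0` implies that `χ`
is a polynomial of degree `< n`.
-/

set_option autoImplicit false

open UpperHalfPlane hiding I
open Complex Derivative Polynomial
open scoped Manifold Topology Real

namespace Fermat.Agent.S22Lib

noncomputable section

/-- `n`-fold iterate of the normalised derivative. -/
def Dn (n : ℕ) (F : ℍ → ℂ) : ℍ → ℂ := (normalizedDerivOfComplex)^[n] F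

@[simp] theorem Dn_zero (F : ℍ → ℂ) : Dn 0 F = F := rfl

theorem Dn_succ (n : ℕ) (F : ℍ → ℂ) : Dn (n + 1) F = Dn n (D F) := by
  simp [Dn, Function.iterate_succ_apply]

theorem Dn_succ' (n : ℕ) (F : ℍ → ℂ) : Dn (n + 1) F = D (Dn n F) := by
  simp [Dn, Function.iterate_succ_apply']

theorem Dn_one (F : ℍ → ℂ) : Dn 1 F = D F := rfl

theorem mdiff_Dn {F : ℍ → ℂ} (hF : MDiff F) (n : ℕ) : MDiff (Dn n F) := by
  induction n with
  | zero => exact hF
  | succ n ih => rw [Dn_succ']; exact normalizedDerivOfComplex_mdifferentiable ih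

theorem Dn_add {F G : ℍ → ℂ} (hF : MDiff F) (hG : MDiff G) (n : ℕ) :
    Dn n (F + G) = Dn n F + Dn n G := by
  induction n with
  | zero => rfl
  | succ n ih =>
    rw [Dn_succ', Dn_succ', Dn_succ', ih,
      normalizedDerivOfComplex_add _ _ (mdiff_Dn hF n) (mdiff_Dn hG n)]

theorem Dn_smul {F : ℍ → ℂ} (hF : MDiff F) (c : ℂ) (n : ℕ) :
    Dn n (c • F) = c • Dn n F := by
  induction n with
  | zero => rfl
  | succ n ih =>
    rw [Dn_succ', Dn_succ', ih, normalizedDerivOfComplex_smul _ _ (mdiff_Dn hF n)]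

theorem Dn_neg {F : ℍ → ℂ} (hF : MDiff F) (n : ℕ) : Dn n (-F) = -Dn n F := by
  have : -F = (-1 : ℂ) • F := by ext; simp
  rw [this, Dn_smul hF]
  ext; simp

theorem Dn_sub {F G : ℍ → ℂ} (hF : MDiff F) (hG : MDiff G) (n : ℕ) :
    Dn n (F - G) = Dn n F - Dn n G := by
  rw [sub_eq_add_neg, Dn_add hF hG.neg, Dn_neg hG, sub_eq_add_neg]

@[simp] theorem Dn_zero_fun (n : ℕ) : Dn n (0 : ℍ → ℂ) = 0 := by
  have h : MDiff (0 : ℍ → ℂ) := mdifferentiable_const
  have := Dn_smul h 0 n
  simpa using this

/-- A holomorphic function on `ℍ` with `D F = 0` is constant. -/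
theorem exists_const_of_D_eq_zero {F : ℍ → ℂ} (hF : MDiff F) (h : D F = 0) :
    ∃ c : ℂ, ∀ τ : ℍ, F τ = c := by
  have hF' : DifferentiableOn ℂ (F ∘ ofComplex) upperHalfPlaneSet := mdifferentiable_iff.mp hF
  have hconn : IsPreconnected upperHalfPlaneSet :=
    (Complex.isConnected_of_upperHalfPlane subset_rfl (by grind)).isPreconnected
  have hderiv : upperHalfPlaneSet.EqOn (deriv (F ∘ ofComplex)) 0 := by
    intro z hz
    have := congrFun h ⟨z, hz⟩
    simp only [normalizedDerivOfComplex, Pi.zero_apply] at this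
    rcases mul_eq_zero.mp this with h1 | h1
    · exact absurd (inv_eq_zero.mp h1) two_pi_I_ne_zero
    · exact h1
  have hfderiv : upperHalfPlaneSet.EqOn (fderiv ℂ (F ∘ ofComplex)) 0 := by
    intro z hz
    ext
    simp [hderiv hz]
  obtain ⟨a, ha⟩ := isOpen_upperHalfPlaneSet.exists_is_const_of_fderiv_eq_zero hconn hF' hfderiv
  refine ⟨a, fun τ => ?_⟩
  have := ha τ τ.im_pos
  simpa using this

end

end Fermat.Agent.S22Lib

namespace Fermat.Agent.S22Lib

noncomputable section

/-- the function on `ℍ` given by a polynomial -/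
def polyFun (P : ℂ[X]) : ℍ → ℂ := fun τ => P.eval (τ : ℂ)

@[simp] theorem polyFun_apply (P : ℂ[X]) (τ : ℍ) : polyFun P τ = P.eval (τ : ℂ) := rfl

theorem polyFun_comp_ofComplex_eventuallyEq (P : ℂ[X]) (τ : ℍ) :
    (polyFun P ∘ ofComplex) =ᶠ[𝓝 (τ : ℂ)] fun z => P.eval z := by
  filter_upwards [isOpen_upperHalfPlaneSet.mem_nhds τ.im_pos] with w hw
  simp [polyFun, ofComplex_apply_of_im_pos hw]

theorem mdiff_polyFun (P : ℂ[X]) : MDiff (polyFun P) := by
  intro τ
  rw [mdifferentiableAt_iff]
  exact (P.differentiable.differentiableAt).congr_of_eventuallyEq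
    (polyFun_comp_ofComplex_eventuallyEq P τ)

theorem D_polyFun (P : ℂ[X]) :
    D (polyFun P) = (2 * π * I)⁻¹ • polyFun (derivative P) := by
  ext τ
  simp only [normalizedDerivOfComplex, Pi.smul_apply, smul_eq_mul, polyFun_apply]
  rw [(polyFun_comp_ofComplex_eventuallyEq P τ).deriv_eq, Polynomial.deriv]

theorem polyFun_add (P Q : ℂ[X]) : polyFun (P + Q) = polyFun P + polyFun Q := by
  ext τ; simp

theorem polyFun_smul (c : ℂ) (P : ℂ[X]) : polyFun (c • P) = c • polyFun P := by
  ext τ; simp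

theorem polyFun_sub (P Q : ℂ[X]) : polyFun (P - Q) = polyFun P - polyFun Q := by
  ext τ; simp

theorem polyFun_C (c : ℂ) : polyFun (C c) = fun _ => c := by
  ext τ; simp

/-- Two polynomials agreeing on the upper half plane are equal. -/
theorem polyFun_injective : Function.Injective polyFun := by
  intro P Q h
  refine Polynomial.eq_of_infinite_eval_eq P Q ?_
  have hsub : (Set.range fun n : ℕ => ((n : ℂ) + I)) ⊆ {x | eval x P = eval x Q} := by
    rintro _ ⟨n, rfl⟩
    have hn : 0 < ((n : ℂ) + I).im := by simp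
    have := congrFun h ⟨(n : ℂ) + I, hn⟩
    simpa using this
  refine Set.Infinite.mono hsub (Set.infinite_range_of_injective ?_)
  intro a b hab
  have := congrArg Complex.re hab
  simpa using this

/-- explicit antiderivative of a polynomial -/
def polyAntideriv (Q : ℂ[X]) : ℂ[X] :=
  Q.sum fun i a => C (a / ((i : ℂ) + 1)) * X ^ (i + 1)

theorem derivative_polyAntideriv (Q : ℂ[X]) : derivative (polyAntideriv Q) = Q := by
  rw [polyAntideriv, Polynomial.sum_def, derivative_sum]
  conv_rhs => rw [Q.as_sum_support_C_mul_X_pow]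
  refine Finset.sum_congr rfl fun i _ => ?_
  rw [derivative_C_mul_X_pow]
  congr 2
  have : ((i : ℂ) + 1) ≠ 0 := by
    have : ((i + 1 : ℕ) : ℂ) ≠ 0 := Nat.cast_ne_zero.mpr (Nat.succ_ne_zero i)
    simpa using this
  push_cast
  field_simp

theorem degree_polyAntideriv_lt (Q : ℂ[X]) {n : ℕ} (hQ : Q.degree < n) :
    (polyAntideriv Q).degree < (n + 1 : ℕ) := by
  rw [polyAntideriv, Polynomial.sum_def]
  refine lt_of_le_of_lt (Polynomial.degree_sum_le _ _) ?_
  rw [Finset.sup_lt_iff (by exact_mod_cast WithBot.bot_lt_coe (n + 1))]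
  intro i hi
  have hi' : i < n := by
    have := Polynomial.le_degree_of_mem_supp i hi
    exact_mod_cast lt_of_le_of_lt this hQ
  refine lt_of_le_of_lt (Polynomial.degree_C_mul_X_pow_le _ _) ?_
  exact_mod_cast Nat.succ_lt_succ hi'

/-- If `D^n F = 0` for a holomorphic `F` on `ℍ` then `F` is a polynomial of degree `< n`. -/
theorem exists_poly_of_Dn_eq_zero (n : ℕ) {F : ℍ → ℂ} (hF : MDiff F) (h : Dn n F = 0) :
    ∃ P : ℂ[X], P.degree < n ∧ F = polyFun P := by
  induction n generalizing F with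
  | zero =>
    refine ⟨0, by simp, ?_⟩
    rw [Dn_zero] at h
    rw [h]; ext τ; simp
  | succ n ih =>
    rw [Dn_succ] at h
    obtain ⟨Q, hQdeg, hQ⟩ := ih (normalizedDerivOfComplex_mdifferentiable hF) h
    set R : ℂ[X] := (2 * π * I) • polyAntideriv Q with hR
    have hDR : D (polyFun R) = polyFun Q := by
      rw [D_polyFun, hR, derivative_smul, derivative_polyAntideriv, polyFun_smul, smul_smul,
        inv_mul_cancel₀ two_pi_I_ne_zero, one_smul]
    have hsub : D (F - polyFun R) = 0 := by
      rw [normalizedDerivOfComplex_sub _ _ hF (mdiff_polyFun R), hDR, hQ, sub_self]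
    obtain ⟨c, hc⟩ := exists_const_of_D_eq_zero (hF.sub (mdiff_polyFun R)) hsub
    refine ⟨R + C c, ?_, ?_⟩
    · have h1 : R.degree < (n + 1 : ℕ) :=
        lt_of_le_of_lt (Polynomial.degree_smul_le _ _) (degree_polyAntideriv_lt Q hQdeg)
      have h2 : (C c).degree < (n + 1 : ℕ) :=
        lt_of_le_of_lt Polynomial.degree_C_le (by exact_mod_cast Nat.succ_pos n)
      exact lt_of_le_of_lt (Polynomial.degree_add_le _ _) (max_lt h1 h2)
    · ext τ
      have := hc τ
      simp only [Pi.sub_apply, polyFun_apply] at this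
      simp only [polyFun_apply, eval_add, eval_C]
      linear_combination this

/-- Conversely `D^n` kills polynomials of degree `< n`. -/
theorem Dn_polyFun_eq_zero (n : ℕ) (P : ℂ[X]) (hP : P.degree < n) : Dn n (polyFun P) = 0 := by
  induction n generalizing P with
  | zero =>
    have : P = 0 := by
      by_contra hne
      have := Polynomial.zero_le_degree_iff.mpr hne
      exact absurd (lt_of_le_of_lt this hP) (by simp)
    subst this; ext τ; simp
  | succ n ih =>
    rw [Dn_succ, D_polyFun, Dn_smul (mdiff_polyFun _), ih, smul_zero]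
    by_cases hP0 : P = 0
    · subst hP0; simp
    refine lt_of_lt_of_le (Polynomial.degree_derivative_lt hP0) ?_
    exact_mod_cast Order.le_of_lt_succ (by exact_mod_cast hP)

end

end Fermat.Agent.S22Lib
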