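import Mathlib
import Fermat.Agent.Lib.S22.DCalc

/-!
# Cuspidal primitives

A holomorphic periodic function on `ℍ` vanishing at `i∞` has a (unique) primitive for
`D = (2πi)⁻¹ d/dτ` with the same properties.
-/

set_option autoImplicit false

open UpperHalfPlane hiding I
open Complex Derivative Polynomial Filter Function
open scoped Manifold Topology Real

namespace Fermat.Agent.S22Lib

noncomputable section

local notation "𝕢" => Periodic.qParam

theorem hasDerivAt_qParam (h : ℝ) (z : ℂ) :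
    HasDerivAt (𝕢 h) (𝕢 h z * (2 * π * I / h)) z := by
  simpa only [id_eq, mul_one] using!
    ((((hasDerivAt_id z).const_mul (2 * π * I)).div_const (h : ℂ)).cexp)

theorem qParam_add_period {h : ℝ} (hh : h ≠ 0) (z : ℂ) : 𝕢 h (z + h) = 𝕢 h z := by
  simp only [Periodic.qParam]
  have hh' : (h : ℂ) ≠ 0 := by exact_mod_cast hh
  rw [show 2 * π * I * (z + h) / h = 2 * π * I * z / h + 2 * π * I by field_simp]
  exact Complex.exp_periodic _

/-- One-step cuspidal primitive. -/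
theorem exists_cuspidal_primitive {φ : ℍ → ℂ} (hφ : MDiff φ) {h : ℝ} (hh : 0 < h)
    (hper : Periodic (φ ∘ ofComplex) h) (hzero : IsZeroAtImInfty φ) :
    ∃ ψ : ℍ → ℂ, MDiff ψ ∧ Periodic (ψ ∘ ofComplex) h ∧ IsZeroAtImInfty ψ ∧ D ψ = φ := by
  set c := cuspFunction h φ with hc
  have hcd : DifferentiableOn ℂ c (Metric.ball 0 1) :=
    differentiableOn_cuspFunction_ball hh hper hφ hzero.isBoundedAtImInfty
  have hc0 : c 0 = 0 := hzero.cuspFunction_apply_zero hh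
  have hdd : DifferentiableOn ℂ (dslope c 0) (Metric.ball 0 1) :=
    (differentiableOn_dslope (Metric.ball_mem_nhds 0 one_pos)).mpr hcd
  obtain ⟨γ, hγ0, hγ⟩ := (hdd.isExactOn_ball).with_val_at 0 0
  have hh' : (h : ℂ) ≠ 0 := by exact_mod_cast hh.ne'
  -- the candidate
  set ψ : ℍ → ℂ := fun τ => (h : ℂ) * γ (𝕢 h τ) with hψ
  have hψcomp : ∀ τ : ℍ, (ψ ∘ ofComplex) =ᶠ[𝓝 (τ : ℂ)] fun z => (h : ℂ) * γ (𝕢 h z) := by
    intro τ
    filter_upwards [isOpen_upperHalfPlaneSet.mem_nhds τ.im_pos] with w hw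
    simp [hψ, ofComplex_apply_of_im_pos hw]
  have hq : ∀ τ : ℍ, 𝕢 h τ ∈ Metric.ball (0 : ℂ) 1 := fun τ => by
    simpa using Periodic.norm_qParam_lt_one hh τ.im_pos
  have hderiv : ∀ τ : ℍ, HasDerivAt (ψ ∘ ofComplex) ((2 * π * I) * φ τ) τ := by
    intro τ
    have hq0 : 𝕢 h τ ≠ 0 := Periodic.qParam_ne_zero _
    have h1 : HasDerivAt (fun z => (h : ℂ) * γ (𝕢 h z))
        ((h : ℂ) * (dslope c 0 (𝕢 h τ) * (𝕢 h τ * (2 * π * I / h)))) τ :=
      ((hγ _ (hq τ)).comp (τ : ℂ) (hasDerivAt_qParam h τ)).const_mul _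
    have h2 : dslope c 0 (𝕢 h τ) = (𝕢 h τ)⁻¹ * φ τ := by
      rw [dslope_of_ne _ hq0, slope_def_field, hc0, sub_zero, sub_zero,
        hc, eq_cuspFunction τ hh.ne' hper]
      ring
    have h3 : (h : ℂ) * (dslope c 0 (𝕢 h τ) * (𝕢 h τ * (2 * π * I / h))) = (2 * π * I) * φ τ := by
      rw [h2]; field_simp
    rw [h3] at h1
    exact h1.congr_of_eventuallyEq (hψcomp τ)
  refine ⟨ψ, ?_, ?_, ?_, ?_⟩
  · intro τ
    exact mdifferentiableAt_iff.mpr (hderiv τ).differentiableAt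
  · intro w
    by_cases hw : 0 < im w
    · have hw' : 0 < im (w + h) := by simpa using hw
      simp only [comp_apply, hψ, ofComplex_apply_of_im_pos hw', ofComplex_apply_of_im_pos hw]
      rw [qParam_add_period hh.ne']
    · have hw0 : im w ≤ 0 := not_lt.mp hw
      have hw' : im (w + h) ≤ 0 := by simpa using hw0
      simp only [comp_apply, ofComplex_apply_of_im_nonpos hw', ofComplex_apply_of_im_nonpos hw0]
  · have hcont : ContinuousAt γ 0 := (hγ 0 (by simp)).continuousAt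
    have h1 : Tendsto (fun τ : ℍ => γ (𝕢 h τ)) atImInfty (𝓝 (γ 0)) :=
      hcont.tendsto.comp (qParam_tendsto_atImInfty hh)
    rw [hγ0] at h1
    have h2 := h1.const_mul (h : ℂ)
    rw [mul_zero] at h2
    exact h2
  · ext τ
    simp only [normalizedDerivOfComplex]
    rw [(hderiv τ).deriv, ← mul_assoc, inv_mul_cancel₀ two_pi_I_ne_zero, one_mul]


/-- `n`-fold cuspidal primitive, existence. -/
theorem exists_cuspidal_iter_primitive (n : ℕ) {φ : ℍ → ℂ} (hφ : MDiff φ) {h : ℝ} (hh : 0 < h)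
    (hper : Periodic (φ ∘ ofComplex) h) (hzero : IsZeroAtImInfty φ) :
    ∃ ψ : ℍ → ℂ, MDiff ψ ∧ Periodic (ψ ∘ ofComplex) h ∧ IsZeroAtImInfty ψ ∧ Dn n ψ = φ := by
  induction n with
  | zero => exact ⟨φ, hφ, hper, hzero, rfl⟩
  | succ n ih =>
    obtain ⟨ψ₁, h1, h2, h3, h4⟩ := ih
    obtain ⟨ψ, g1, g2, g3, g4⟩ := exists_cuspidal_primitive h1 hh h2 h3
    exact ⟨ψ, g1, g2, g3, by rw [Dn_succ, g4, h4]⟩

theorem tendsto_norm_coe_atImInfty : Tendsto (fun τ : ℍ => ‖(τ : ℂ)‖) atImInfty atTop := by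
  have h0 : Tendsto (fun τ : ℍ => τ.im) atImInfty atTop := tendsto_comap
  refine tendsto_atTop_mono (fun τ => ?_) h0
  exact (le_abs_self _).trans (Complex.abs_im_le_norm _)

/-- A polynomial function on `ℍ` which tends to zero at `i∞` is zero. -/
theorem eq_zero_of_isZeroAtImInfty_polyFun (P : ℂ[X]) (h : IsZeroAtImInfty (polyFun P)) :
    P = 0 := by
  by_contra hP
  rcases (Polynomial.zero_le_degree_iff.mpr hP).lt_or_eq with hdeg | hdeg
  · have h1 : Tendsto (fun τ : ℍ => ‖P.eval (τ : ℂ)‖) atImInfty atTop :=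
      Polynomial.tendsto_norm_atTop P hdeg tendsto_norm_coe_atImInfty
    have h2 : Tendsto (fun τ : ℍ => ‖P.eval (τ : ℂ)‖) atImInfty (𝓝 0) := by
      simpa using (tendsto_zero_iff_norm_tendsto_zero.mp h)
    exact not_tendsto_nhds_of_tendsto_atTop h1 _ h2
  · obtain ⟨a, rfl⟩ : ∃ a, P = C a := ⟨_, Polynomial.eq_C_of_degree_eq_zero hdeg.symm⟩
    have h2 : Tendsto (fun _ : ℍ => a) atImInfty (𝓝 0) := by
      have h3 : polyFun (C a) = fun _ : ℍ => a := polyFun_C a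
      rw [h3] at h
      exact h
    have := tendsto_nhds_unique tendsto_const_nhds h2
    exact hP (by rw [this, C_0])

/-- `n`-fold cuspidal primitive, uniqueness (no periodicity needed). -/
theorem cuspidal_iter_primitive_unique (n : ℕ) {ψ₁ ψ₂ : ℍ → ℂ} (h1 : MDiff ψ₁) (h2 : MDiff ψ₂)
    (z1 : IsZeroAtImInfty ψ₁) (z2 : IsZeroAtImInfty ψ₂) (h : Dn n ψ₁ = Dn n ψ₂) : ψ₁ = ψ₂ := by
  have hD : Dn n (ψ₁ - ψ₂) = 0 := by rw [Dn_sub h1 h2, h, sub_self]
  obtain ⟨P, -, hP⟩ := exists_poly_of_Dn_eq_zero n (h1.sub h2) hD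
  have hz : IsZeroAtImInfty (polyFun P) := by
    rw [← hP]
    have := Filter.Tendsto.sub z1 z2
    rw [sub_zero] at this
    exact this
  have hP0 := eq_zero_of_isZeroAtImInfty_polyFun P hz
  rw [hP0] at hP
  ext τ
  have := congrFun hP τ
  simp only [Pi.sub_apply, polyFun_apply, eval_zero] at this
  exact sub_eq_zero.mp this

/-- A function on `ℍ` is *cuspidal at `i∞`* if it is holomorphic, periodic with some positive
integer period, and tends to zero at `i∞`. -/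
structure IsCuspidal (φ : ℍ → ℂ) : Prop where
  mdiff : MDiff φ
  periodic : ∃ h : ℕ, 0 < h ∧ Periodic (φ ∘ ofComplex) ((h : ℝ) : ℂ)
  zero : IsZeroAtImInfty φ

theorem IsCuspidal.exists_iter_primitive {φ : ℍ → ℂ} (hφ : IsCuspidal φ) (n : ℕ) :
    ∃ ψ : ℍ → ℂ, IsCuspidal ψ ∧ Dn n ψ = φ := by
  obtain ⟨h, hh, hper⟩ := hφ.periodic
  obtain ⟨ψ, h1, h2, h3, h4⟩ := exists_cuspidal_iter_primitive n hφ.mdiff
    (h := (h : ℝ)) (by exact_mod_cast hh) hper hφ.zero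
  exact ⟨ψ, ⟨h1, ⟨h, hh, h2⟩, h3⟩, h4⟩

open Classical in
/-- The `n`-fold cuspidal primitive of a cuspidal function (junk value `0` otherwise). -/
def cuspPrim (n : ℕ) (φ : ℍ → ℂ) : ℍ → ℂ :=
  if h : IsCuspidal φ then (h.exists_iter_primitive n).choose else 0

theorem isCuspidal_cuspPrim {φ : ℍ → ℂ} (hφ : IsCuspidal φ) (n : ℕ) :
    IsCuspidal (cuspPrim n φ) := by
  rw [cuspPrim, dif_pos hφ]
  exact (hφ.exists_iter_primitive n).choose_spec.1

theorem Dn_cuspPrim {φ : ℍ → ℂ} (hφ : IsCuspidal φ) (n : ℕ) : Dn n (cuspPrim n φ) = φ := by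
  rw [cuspPrim, dif_pos hφ]
  exact (hφ.exists_iter_primitive n).choose_spec.2

/-- Characterisation of the cuspidal primitive. -/
theorem eq_cuspPrim {φ ψ : ℍ → ℂ} (hφ : IsCuspidal φ) (n : ℕ) (hψ : MDiff ψ)
    (hz : IsZeroAtImInfty ψ) (h : Dn n ψ = φ) : ψ = cuspPrim n φ :=
  cuspidal_iter_primitive_unique n hψ (isCuspidal_cuspPrim hφ n).mdiff hz
    (isCuspidal_cuspPrim hφ n).zero (by rw [h, Dn_cuspPrim hφ])

theorem IsCuspidal.add {φ₁ φ₂ : ℍ → ℂ} (h1 : IsCuspidal φ₁) (h2 : IsCuspidal φ₂) :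
    IsCuspidal (φ₁ + φ₂) := by
  obtain ⟨a, ha, pa⟩ := h1.periodic
  obtain ⟨b, hb, pb⟩ := h2.periodic
  refine ⟨h1.mdiff.add h2.mdiff, ⟨a * b, Nat.mul_pos ha hb, ?_⟩, ?_⟩
  · have e1 : (((a * b : ℕ) : ℝ) : ℂ) = (b : ℕ) • (((a : ℕ) : ℝ) : ℂ) := by
      push_cast; simp [mul_comm]
    have e2 : (((a * b : ℕ) : ℝ) : ℂ) = (a : ℕ) • (((b : ℕ) : ℝ) : ℂ) := by
      push_cast; simp
    have p1 : Periodic (φ₁ ∘ ofComplex) (((a * b : ℕ) : ℝ) : ℂ) := e1 ▸ pa.nsmul b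
    have p2 : Periodic (φ₂ ∘ ofComplex) (((a * b : ℕ) : ℝ) : ℂ) := e2 ▸ pb.nsmul a
    exact p1.add p2
  · have := h1.zero.add h2.zero
    simpa [IsZeroAtImInfty, ZeroAtFilter] using this

theorem IsCuspidal.smul {φ : ℍ → ℂ} (hφ : IsCuspidal φ) (c : ℂ) : IsCuspidal (c • φ) := by
  obtain ⟨a, ha, pa⟩ := hφ.periodic
  refine ⟨hφ.mdiff.const_smul c, ⟨a, ha, ?_⟩, ?_⟩
  · exact pa.smul c
  · have := hφ.zero.smul c
    simpa [IsZeroAtImInfty, ZeroAtFilter] using this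

theorem cuspPrim_add {φ₁ φ₂ : ℍ → ℂ} (h1 : IsCuspidal φ₁) (h2 : IsCuspidal φ₂) (n : ℕ) :
    cuspPrim n (φ₁ + φ₂) = cuspPrim n φ₁ + cuspPrim n φ₂ := by
  symm
  have c1 := isCuspidal_cuspPrim h1 n
  have c2 := isCuspidal_cuspPrim h2 n
  refine eq_cuspPrim (h1.add h2) n (c1.mdiff.add c2.mdiff) (c1.add c2).zero ?_
  rw [Dn_add c1.mdiff c2.mdiff, Dn_cuspPrim h1, Dn_cuspPrim h2]

theorem cuspPrim_smul {φ : ℍ → ℂ} (hφ : IsCuspidal φ) (c : ℂ) (n : ℕ) :
    cuspPrim n (c • φ) = c • cuspPrim n φ := by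
  symm
  have c1 := isCuspidal_cuspPrim hφ n
  refine eq_cuspPrim (hφ.smul c) n (c1.mdiff.const_smul c) (c1.smul c).zero ?_
  rw [Dn_smul c1.mdiff, Dn_cuspPrim hφ]

end

end Fermat.Agent.S22Lib
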