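import Mathlib
import Fermat.Agent.Lib.S22.DCalc

/-!
# Bol's identity

`D^n (ψ ∣[1-n] g) = det(g)^(-n) • (D^n ψ) ∣[n+1] g` for `g ∈ GL₂(ℝ)⁺` and holomorphic `ψ`.
-/

set_option autoImplicit false

open UpperHalfPlane hiding I
open Complex Derivative
open scoped Manifold Topology Real ModularForm MatrixGroups

namespace Fermat.Agent.S22Lib

noncomputable section

variable {g : GL (Fin 2) ℝ}

theorem slash_apply_of_det_pos (hg : 0 < g.val.det) (k : ℤ) (F : ℍ → ℂ) (z : ℍ) :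
    (F ∣[k] g) z = F (g • z) * (g.val.det : ℂ) ^ (k - 1) * denom g z ^ (-k) := by
  have hdet : g.det.val = g.val.det := Matrix.GeneralLinearGroup.val_det_apply g
  have hσ (x) : σ g x = x := by grind [σ, ContinuousAlgEquiv.refl_apply]
  rw [ModularForm.slash_apply, hσ, hdet, abs_of_pos hg]

/-- weight shift: `F ∣[k] g = det⁻¹ * denom * F ∣[k+1] g` -/
theorem slash_weight_shift (hg : 0 < g.val.det) (k : ℤ) (F : ℍ → ℂ) (z : ℍ) :
    (F ∣[k] g) z = (g.val.det : ℂ)⁻¹ * denom g z * (F ∣[k + 1] g) z := by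
  have hdetℂ : (g.val.det : ℂ) ≠ 0 := Complex.ofReal_ne_zero.mpr hg.ne'
  have hz := denom_ne_zero g z
  rw [slash_apply_of_det_pos hg, slash_apply_of_det_pos hg]
  rw [show k + 1 - 1 = (k - 1) + 1 by ring, show -(k + 1) = -k - 1 by ring,
    zpow_add_one₀ hdetℂ, zpow_sub_one₀ hz]
  field_simp

theorem mdiff_slash {F : ℍ → ℂ} (hF : MDiff F) (k : ℤ) (g : GL (Fin 2) ℝ) : MDiff (F ∣[k] g) :=
  hF.slash k g

/-- Clean form of the derivative of a slash. -/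
theorem D_slash (hg : 0 < g.val.det) (k : ℤ) {F : ℍ → ℂ} (hF : MDiff F) :
    D (F ∣[k] g) = (g.val.det : ℂ)⁻¹ • (D F ∣[k + 2] g)
      - ((k : ℂ) * (g 1 0 : ℂ) * (2 * π * I)⁻¹ * (g.val.det : ℂ)⁻¹) • (F ∣[k + 1] g) := by
  rw [normalizedDerivOfComplex_slash hF hg]
  ext z
  have hz := denom_ne_zero g z
  simp only [Pi.sub_apply, Pi.smul_apply, smul_eq_mul]
  rw [slash_weight_shift hg k F z]
  field_simp


/-- **Bol's identity.** -/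
theorem bol (hg : 0 < g.val.det) (n : ℕ) {ψ : ℍ → ℂ} (hψ : MDiff ψ) :
    Dn n (ψ ∣[(1 : ℤ) - n] g) = ((g.val.det : ℂ) ^ n)⁻¹ • (Dn n ψ ∣[(n : ℤ) + 1] g) := by
  have hdetℂ : (g.val.det : ℂ) ≠ 0 := Complex.ofReal_ne_zero.mpr hg.ne'
  -- prove `P n ∧ P (n+1)` by induction
  suffices H : ∀ n : ℕ, (∀ ψ : ℍ → ℂ, MDiff ψ →
      Dn n (ψ ∣[(1 : ℤ) - n] g) = ((g.val.det : ℂ) ^ n)⁻¹ • (Dn n ψ ∣[(n : ℤ) + 1] g)) ∧
      (∀ ψ : ℍ → ℂ, MDiff ψ → Dn (n + 1) (ψ ∣[(1 : ℤ) - (n + 1 : ℕ)] g) =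
        ((g.val.det : ℂ) ^ (n + 1))⁻¹ • (Dn (n + 1) ψ ∣[((n + 1 : ℕ) : ℤ) + 1] g)) from
    (H n).1 ψ hψ
  intro n
  induction n with
  | zero =>
    refine ⟨fun ψ _ => by simp, fun ψ hψ => ?_⟩
    have h0 : (1 : ℤ) - ((0 + 1 : ℕ) : ℤ) = 0 := by norm_num
    rw [h0, Dn_one, Dn_one, D_slash hg 0 hψ]
    simp
  | succ n ih =>
    refine ⟨ih.2, fun ψ hψ => ?_⟩
    obtain ⟨ih1, ih2⟩ := ih
    -- notation
    set d : ℂ := (g.val.det : ℂ) with hd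
    set c : ℂ := (g 1 0 : ℂ) with hc
    set m : ℕ := n + 1 with hm
    have hDψ : MDiff (D ψ) := normalizedDerivOfComplex_mdifferentiable hψ
    have hw1 : (1 : ℤ) - ((m + 1 : ℕ) : ℤ) = -(m : ℤ) := by push_cast; ring
    have hw2 : -(m : ℤ) + 2 = 1 - (n : ℤ) := by rw [hm]; push_cast; ring
    have hw3 : -(m : ℤ) + 1 = 1 - (m : ℤ) := by ring
    have hw4 : ((m + 1 : ℕ) : ℤ) + 1 = (m : ℤ) + 2 := by push_cast; ring
    have hw5 : ((n : ℤ) + 1) = (m : ℤ) := by rw [hm]; push_cast; ring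
    have hw6 : (m : ℤ) + 1 = ((m : ℕ) : ℤ) + 1 := rfl
    rw [hw1, hw4]
    -- first derivative of `ψ ∣[-m] g`
    have step1 : D (ψ ∣[-(m : ℤ)] g) = d⁻¹ • (D ψ ∣[(1 : ℤ) - n] g)
        + ((m : ℂ) * c * (2 * π * I)⁻¹ * d⁻¹) • (ψ ∣[(1 : ℤ) - m] g) := by
      rw [D_slash hg _ hψ, hw2, hw3]
      ext z
      simp only [Pi.sub_apply, Pi.add_apply, Pi.smul_apply, smul_eq_mul]
      push_cast
      ring
    -- `D^m` of the first summand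
    have step2 : Dn m (D ψ ∣[(1 : ℤ) - n] g) =
        (d ^ n)⁻¹ • (d⁻¹ • (Dn (m + 1) ψ ∣[(m : ℤ) + 2] g)
          - ((m : ℂ) * c * (2 * π * I)⁻¹ * d⁻¹) • (Dn m ψ ∣[(m : ℤ) + 1] g)) := by
      rw [hm, Dn_succ' n, ih1 (D ψ) hDψ, ← Dn_succ, hw5,
        normalizedDerivOfComplex_smul _ _ ((mdiff_Dn hψ _).slash _ _),
        D_slash hg _ (mdiff_Dn hψ _), ← Dn_succ']
      congr 3
    -- `D^m` of the second summand
    have step3 : Dn m (ψ ∣[(1 : ℤ) - m] g) = (d ^ m)⁻¹ • (Dn m ψ ∣[(m : ℤ) + 1] g) :=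
      ih2 ψ hψ
    rw [Dn_succ, step1, Dn_add ((hDψ.slash _ _).const_smul _) ((hψ.slash _ _).const_smul _),
      Dn_smul (hDψ.slash _ _), Dn_smul (hψ.slash _ _), step2, step3]
    ext z
    simp only [Pi.sub_apply, Pi.add_apply, Pi.smul_apply, smul_eq_mul]
    have hdm : d ^ m = d ^ n * d := by rw [hm, pow_succ]
    have hdm1 : d ^ (m + 1) = d ^ n * d * d := by rw [pow_succ, hdm]
    rw [hdm, hdm1]
    field_simp
    ring

end

end Fermat.Agent.S22Lib
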