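import Mathlib
import Fermat.Agent.Lib.S22.CuspPrim
import Fermat.Agent.Lib.S22.Bol
import Fermat.Agent.Lib.S22.UpperTriangular

/-!
# Cuspidality and the slash action by integer matrices (task K)

* `IsCuspidal.slash_upper`: slashing by an upper triangular integer matrix with positive diagonal
  preserves "cuspidal at `i∞`".
* `cuspPrim_slash_upper`: compatibility of the cuspidal primitive with such matrices.
* `IsCuspidalAll`: cuspidal at every cusp; closure under `intGL`, sums and scalar multiples.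
-/

set_option autoImplicit false

open UpperHalfPlane hiding I
open Complex Derivative Polynomial Filter Function
open scoped Manifold Topology Real ModularForm MatrixGroups

namespace Fermat.Agent.S22Lib

theorem intGL_upper_apply_one_zero (a b d : ℤ)
    (hdet : 0 < (!![a, b; 0, d] : Matrix (Fin 2) (Fin 2) ℤ).det) :
    (intGL !![a, b; 0, d] hdet) 1 0 = 0 := by
  rw [intGL_val]
  simp

theorem IsCuspidal.slash_upper {φ : ℍ → ℂ} (hφ : IsCuspidal φ) (k : ℤ) (a b d : ℤ) (ha : 0 < a)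
    (hd : 0 < d) (hdet : 0 < (!![a, b; 0, d] : Matrix (Fin 2) (Fin 2) ℤ).det) :
    IsCuspidal (φ ∣[k] intGL !![a, b; 0, d] hdet) := by
  obtain ⟨h, hh, hper⟩ := hφ.periodic
  refine ⟨mdiff_slash hφ.mdiff k _, ⟨d.toNat * h, ?_, ?_⟩, ?_⟩
  · have : 0 < d.toNat := by omega
    exact Nat.mul_pos this hh
  · exact periodic_slash_upper k a b d ha hd hdet φ h hper
  · exact hφ.zero.slash k (intGL_upper_apply_one_zero a b d hdet)

/-- compatibility of the cuspidal primitive with upper triangular matrices (Bol + uniqueness) -/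
theorem cuspPrim_slash_upper {φ : ℍ → ℂ} (hφ : IsCuspidal φ) (n : ℕ) (a b d : ℤ) (ha : 0 < a)
    (hd : 0 < d) (hdet : 0 < (!![a, b; 0, d] : Matrix (Fin 2) (Fin 2) ℤ).det) :
    cuspPrim n (φ ∣[(n : ℤ) + 1] intGL !![a, b; 0, d] hdet) =
      (((a * d : ℤ) : ℂ) ^ n) • (cuspPrim n φ ∣[(1 : ℤ) - n] intGL !![a, b; 0, d] hdet) := by
  symm
  have c1 := isCuspidal_cuspPrim hφ n
  have c2 := c1.slash_upper ((1 : ℤ) - n) a b d ha hd hdet
  have hgpos : 0 < (intGL !![a, b; 0, d] hdet).val.det := by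
    have := intGL_det_pos _ hdet
    rwa [Matrix.GeneralLinearGroup.val_det_apply] at this
  have hgdet : ((intGL !![a, b; 0, d] hdet).val.det : ℂ) = ((a * d : ℤ) : ℂ) := by
    have := intGL_det _ hdet
    rw [Matrix.GeneralLinearGroup.val_det_apply, upper_det] at this
    rw [this]
    push_cast
    rfl
  have hne : ((a * d : ℤ) : ℂ) ≠ 0 := by
    have : (0 : ℤ) < a * d := mul_pos ha hd
    exact_mod_cast this.ne'
  refine eq_cuspPrim (hφ.slash_upper _ a b d ha hd hdet) n (c2.mdiff.const_smul _)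
    (c2.smul _).zero ?_
  rw [Dn_smul c2.mdiff, bol hgpos n c1.mdiff, Dn_cuspPrim hφ, hgdet, smul_smul,
    mul_inv_cancel₀ (pow_ne_zero _ hne), one_smul]

/-- `f` is cuspidal at every cusp: all `SL(2,ℤ)`-translates are cuspidal at `i∞` -/
def IsCuspidalAll (k : ℤ) (f : ℍ → ℂ) : Prop := ∀ g : SL(2, ℤ), IsCuspidal (f ∣[k] g)

theorem IsCuspidalAll.slash_intGL {k : ℤ} {f : ℍ → ℂ} (hf : IsCuspidalAll k f)
    (A : Matrix (Fin 2) (Fin 2) ℤ) (hA : 0 < A.det) : IsCuspidalAll k (f ∣[k] intGL A hA) := by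
  intro g
  have hgdet : 0 < (g : Matrix (Fin 2) (Fin 2) ℤ).det := by rw [g.2]; exact one_pos
  have hAg : 0 < (A * (g : Matrix (Fin 2) (Fin 2) ℤ)).det := by
    rw [Matrix.det_mul, g.2, mul_one]; exact hA
  obtain ⟨g', a, b, d, ha, hd, hEq⟩ := exists_SL2Z_mul_eq_upper _ hAg
  have hg'det : 0 < (g' : Matrix (Fin 2) (Fin 2) ℤ).det := by rw [g'.2]; exact one_pos
  have hU : 0 < (!![a, b; 0, d] : Matrix (Fin 2) (Fin 2) ℤ).det := by
    rw [upper_det]; exact mul_pos ha hd
  have hprod : 0 < ((g' : Matrix (Fin 2) (Fin 2) ℤ) * !![a, b; 0, d]).det := by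
    rw [← hEq]; exact hAg
  have key : intGL A hA * Matrix.SpecialLinearGroup.mapGL ℝ g =
      Matrix.SpecialLinearGroup.mapGL ℝ g' * intGL !![a, b; 0, d] hU := by
    rw [← intGL_coe_SL g hgdet, ← intGL_coe_SL g' hg'det, ← intGL_mul _ _ hA hgdet hAg,
      ← intGL_mul _ _ hg'det hU hprod]
    congr 1
  have h1 : (f ∣[k] intGL A hA) ∣[k] g = (f ∣[k] g') ∣[k] intGL !![a, b; 0, d] hU := by
    rw [ModularForm.SL_slash, ModularForm.SL_slash, ← SlashAction.slash_mul,
      ← SlashAction.slash_mul]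
    exact congrArg (fun M => f ∣[k] M) key
  rw [h1]
  exact (hf g').slash_upper k a b d ha hd hU

theorem IsCuspidalAll.add {k : ℤ} {f₁ f₂ : ℍ → ℂ} (h1 : IsCuspidalAll k f₁)
    (h2 : IsCuspidalAll k f₂) : IsCuspidalAll k (f₁ + f₂) := by
  intro g
  rw [SlashAction.add_slash]
  exact (h1 g).add (h2 g)

theorem IsCuspidalAll.smul {k : ℤ} {f : ℍ → ℂ} (h1 : IsCuspidalAll k f) (c : ℂ) :
    IsCuspidalAll k (c • f) := by
  intro g
  rw [ModularForm.SL_smul_slash]
  exact (h1 g).smul c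

theorem isCuspidal_zero : IsCuspidal (0 : ℍ → ℂ) := by
  refine ⟨mdifferentiable_const, ⟨1, one_pos, fun z => rfl⟩, ?_⟩
  exact Filter.zero_zeroAtFilter _

theorem isCuspidalAll_zero (k : ℤ) : IsCuspidalAll k (0 : ℍ → ℂ) := by
  intro g
  rw [SlashAction.zero_slash]
  exact isCuspidal_zero

theorem IsCuspidalAll.sum {k : ℤ} {ι : Type*} (s : Finset ι) (f : ι → ℍ → ℂ)
    (h : ∀ i ∈ s, IsCuspidalAll k (f i)) : IsCuspidalAll k (∑ i ∈ s, f i) := by
  classical
  induction s using Finset.induction_on with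
  | empty => simpa using isCuspidalAll_zero k
  | insert i s hi ih =>
    rw [Finset.sum_insert hi]
    exact (h i (Finset.mem_insert_self i s)).add
      (ih fun j hj => h j (Finset.mem_insert_of_mem hj))

end Fermat.Agent.S22Lib
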