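import Mathlib
import Fermat.Prelude.Thm_Subgroup_IsArithmetic_exists_nat_mem_strictPeriods_conj
import Fermat.Agent.Lib.S22.CuspPrim
import Fermat.Agent.Lib.S22.CuspidalSlash

/-!
# Cusp forms are cuspidal at every cusp (S22 task L)

For an arithmetic subgroup `Γ`, a cusp form `f` of level `Γ` and `g : SL(2, ℤ)`, the translate
`f ∣[k] g` is holomorphic, periodic with a positive integer period, and tends to zero at `i∞`,
i.e. `IsCuspidal (f ∣[k] g)`.

`isCuspidalAll_cuspForm` is the same statement packaged with `IsCuspidalAll` from task K.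
-/

set_option autoImplicit false

open UpperHalfPlane hiding I
open Complex Filter Function
open scoped Manifold Topology Real ModularForm MatrixGroups

namespace Fermat.Agent.S22Lib

/-- A cusp form for an arithmetic subgroup, translated by any `g : SL(2, ℤ)`, is cuspidal at
`i∞` in the sense of `IsCuspidal`. -/
theorem isCuspidal_slash_of_arithmetic (Γ : Subgroup (GL (Fin 2) ℝ)) [Γ.IsArithmetic] (k : ℤ)
    (f : CuspForm Γ k) (g : SL(2, ℤ)) : IsCuspidal (⇑f ∣[k] g) := by
  refine ⟨?_, ?_, ?_⟩
  · rw [ModularForm.SL_slash]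
    exact (CuspFormClass.holo f).slash k _
  · obtain ⟨M, hM, hper⟩ := Subgroup.IsArithmetic.exists_nat_mem_strictPeriods_conj Γ
    refine ⟨M, hM, ?_⟩
    have h1 := hper g⁻¹
    rw [map_inv] at h1
    have := SlashInvariantFormClass.periodic_comp_ofComplex
      (SlashInvariantForm.translate f (Matrix.SpecialLinearGroup.mapGL ℝ g)) h1
    rw [SlashInvariantForm.coe_translate] at this
    rw [ModularForm.SL_slash]
    exact this
  · exact CuspFormClass.zero_at_infty_slash f g

/-- Task L, unfolded form: cusp forms on `Γ₀(N)` are cuspidal at all cusps. -/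
theorem isCuspidal_slash_cuspForm_Gamma0 (N : ℕ) [NeZero N] (k : ℤ)
    (f : CuspForm (CongruenceSubgroup.Gamma0 N) k) (g : SL(2, ℤ)) : IsCuspidal (⇑f ∣[k] g) :=
  isCuspidal_slash_of_arithmetic _ k f g

/-- Task L: cusp forms on `Γ₀(N)` are cuspidal at all cusps. -/
theorem isCuspidalAll_cuspForm (N : ℕ) [NeZero N] (k : ℤ)
    (f : CuspForm (CongruenceSubgroup.Gamma0 N) k) : IsCuspidalAll k ⇑f :=
  fun g => isCuspidal_slash_cuspForm_Gamma0 N k f g

end Fermat.Agent.S22Lib
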