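import Mathlib

set_option autoImplicit false

/-! ## Task C: the weight `1 - n` action of integer matrices on polynomials of degree `< n` -/

namespace Fermat.Agent.S22Lib

open Polynomial

/-- `(P ‖ A)(z) = (c z + d)^(n-1) P((a z + b)/(c z + d))` on polynomials of degree `< n`. -/
noncomputable def polyAct (n : ℕ) (A : Matrix (Fin 2) (Fin 2) ℤ) (P : ℂ[X]) : ℂ[X] :=
  ∑ i ∈ Finset.range n, C (P.coeff i) * (C (A 0 0 : ℂ) * X + C (A 0 1 : ℂ)) ^ i *
    (C (A 1 0 : ℂ) * X + C (A 1 1 : ℂ)) ^ (n - 1 - i)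

theorem polyAct_add (n : ℕ) (A : Matrix (Fin 2) (Fin 2) ℤ) (P Q : ℂ[X]) :
    polyAct n A (P + Q) = polyAct n A P + polyAct n A Q := by
  unfold polyAct
  rw [← Finset.sum_add_distrib]
  refine Finset.sum_congr rfl fun i _ => ?_
  rw [coeff_add, C_add]
  ring

theorem polyAct_smul (n : ℕ) (A : Matrix (Fin 2) (Fin 2) ℤ) (c : ℂ) (P : ℂ[X]) :
    polyAct n A (c • P) = c • polyAct n A P := by
  unfold polyAct
  rw [Finset.smul_sum]
  refine Finset.sum_congr rfl fun i _ => ?_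
  rw [coeff_smul, smul_eq_mul, C_mul, smul_eq_C_mul]
  ring

theorem polyAct_degree_lt (n : ℕ) (A : Matrix (Fin 2) (Fin 2) ℤ) (P : ℂ[X]) :
    (polyAct n A P).degree < n := by
  rw [← mem_degreeLT]
  unfold polyAct
  refine Submodule.sum_mem _ fun i hi => ?_
  rw [Finset.mem_range] at hi
  rw [mem_degreeLT]
  refine lt_of_le_of_lt degree_le_natDegree ?_
  rw [Nat.cast_lt]
  have h1 : (C (P.coeff i) * (C (A 0 0 : ℂ) * X + C (A 0 1 : ℂ)) ^ i *
      (C (A 1 0 : ℂ) * X + C (A 1 1 : ℂ)) ^ (n - 1 - i)).natDegree ≤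
        0 + i * 1 + (n - 1 - i) * 1 := by
    refine (natDegree_mul_le).trans (add_le_add ((natDegree_mul_le).trans (add_le_add ?_ ?_)) ?_)
    · rw [natDegree_C]
    · exact (natDegree_pow_le).trans (Nat.mul_le_mul_left _ natDegree_linear_le)
    · exact (natDegree_pow_le).trans (Nat.mul_le_mul_left _ natDegree_linear_le)
  omega

theorem polyAct_eval (n : ℕ) (A : Matrix (Fin 2) (Fin 2) ℤ) (P : ℂ[X]) (hP : P.degree < n)
    (z : ℂ) (hz : (A 1 0 : ℂ) * z + (A 1 1 : ℂ) ≠ 0) :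
    (polyAct n A P).eval z = ((A 1 0 : ℂ) * z + (A 1 1 : ℂ)) ^ (n - 1) *
      P.eval (((A 0 0 : ℂ) * z + (A 0 1 : ℂ)) / ((A 1 0 : ℂ) * z + (A 1 1 : ℂ))) := by
  rcases Nat.eq_zero_or_pos n with rfl | hn
  · have hP0 : P = 0 := by
      rw [← degree_eq_bot]
      rw [Nat.cast_zero] at hP
      exact (Nat.WithBot.lt_zero_iff).mp hP
    subst hP0
    simp [polyAct]
  have hP' : P.natDegree < n := by
    rcases eq_or_ne P 0 with rfl | hP0
    · rw [natDegree_zero]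
      exact hn
    · exact (natDegree_lt_iff_degree_lt hP0).mpr hP
  rw [eval_eq_sum_range' hP', Finset.mul_sum]
  unfold polyAct
  rw [eval_finsetSum]
  refine Finset.sum_congr rfl fun i hi => ?_
  rw [Finset.mem_range] at hi
  simp only [eval_mul, eval_C, eval_pow, eval_add, eval_X]
  have hsplit : n - 1 = (n - 1 - i) + i := by omega
  have hv : ((A 1 0 : ℂ) * z + (A 1 1 : ℂ)) ^ i ≠ 0 := pow_ne_zero _ hz
  rw [div_pow]
  conv_rhs => rw [hsplit, pow_add]
  rw [mul_comm (P.coeff i) (_ / _), ← mul_assoc, mul_assoc (_ ^ (n - 1 - i)), mul_div_cancel₀ _ hv]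
  ring

/-- integrality: the coefficients of `polyAct n A P` are integer combinations of those of `P`. -/
theorem polyAct_coeff_int (n : ℕ) (A : Matrix (Fin 2) (Fin 2) ℤ) :
    ∃ M : ℕ → ℕ → ℤ, ∀ (P : ℂ[X]) (j : ℕ),
      (polyAct n A P).coeff j = ∑ i ∈ Finset.range n, (M j i : ℂ) * P.coeff i := by
  let Q : ℕ → ℤ[X] := fun i =>
    (C (A 0 0) * X + C (A 0 1)) ^ i * (C (A 1 0) * X + C (A 1 1)) ^ (n - 1 - i)
  refine ⟨fun j i => (Q i).coeff j, fun P j => ?_⟩
  unfold polyAct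
  rw [finsetSum_coeff]
  refine Finset.sum_congr rfl fun i _ => ?_
  have hQ : (C (A 0 0 : ℂ) * X + C (A 0 1 : ℂ)) ^ i *
      (C (A 1 0 : ℂ) * X + C (A 1 1 : ℂ)) ^ (n - 1 - i) = (Q i).map (Int.castRingHom ℂ) := by
    simp only [Q, Polynomial.map_mul, Polynomial.map_pow, Polynomial.map_add, Polynomial.map_C,
      Polynomial.map_X, Int.coe_castRingHom]
  rw [mul_assoc, hQ, coeff_C_mul, coeff_map, eq_intCast, mul_comm]

end Fermat.Agent.S22Lib
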