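import Mathlib
import Fermat.Agent.Lib.S22.CuspidalSlash
import Fermat.Agent.Lib.S22.PolyAct

/-!
# Eichler integrals attached to cusps, and period polynomials

For `f` cuspidal at all cusps (weight `n+1`) and `g ∈ SL(2,ℤ)` the Eichler integral
`Φ_g(f) = (cuspPrim n (f ∣[n+1] g)) ∣[1-n] g⁻¹` is an `n`-fold `D`-primitive of `f`.
-/

set_option autoImplicit false

open UpperHalfPlane hiding I
open Complex Derivative Polynomial Filter Function
open scoped Manifold Topology Real ModularForm MatrixGroups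

namespace Fermat.Agent.S22Lib

noncomputable section

/-- the Eichler integral of `f` based at the cusp `g∞` -/
def eichlerInt (n : ℕ) (f : ℍ → ℂ) (g : SL(2, ℤ)) : ℍ → ℂ :=
  (cuspPrim n (f ∣[(n : ℤ) + 1] g)) ∣[(1 : ℤ) - n] g⁻¹

theorem mapGL_det_pos (g : SL(2, ℤ)) :
    0 < ((Matrix.SpecialLinearGroup.mapGL ℝ g : GL (Fin 2) ℝ)).val.det := by
  rw [← Matrix.GeneralLinearGroup.val_det_apply]
  simp

theorem mapGL_det_eq_one (g : SL(2, ℤ)) :
    ((Matrix.SpecialLinearGroup.mapGL ℝ g : GL (Fin 2) ℝ)).val.det = 1 := by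
  rw [← Matrix.GeneralLinearGroup.val_det_apply]
  simp

variable {n : ℕ} {f : ℍ → ℂ}

theorem mdiff_eichlerInt (hf : IsCuspidalAll ((n : ℤ) + 1) f) (g : SL(2, ℤ)) :
    MDiff (eichlerInt n f g) :=
  ((isCuspidal_cuspPrim (hf g) n).mdiff).slash _ _

/-- Bol's identity for `SL(2,ℤ)`. -/
theorem bol_SL (g : SL(2, ℤ)) (n : ℕ) {ψ : ℍ → ℂ} (hψ : MDiff ψ) :
    Dn n (ψ ∣[(1 : ℤ) - n] g) = (Dn n ψ) ∣[(n : ℤ) + 1] g := by
  have := bol (g := Matrix.SpecialLinearGroup.mapGL ℝ g) (mapGL_det_pos g) n hψ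
  rw [mapGL_det_eq_one] at this
  have h2 : ψ ∣[(1 : ℤ) - n] g = ψ ∣[(1 : ℤ) - n] (Matrix.SpecialLinearGroup.mapGL ℝ g) := rfl
  have h3 : (Dn n ψ) ∣[(n : ℤ) + 1] g =
      (Dn n ψ) ∣[(n : ℤ) + 1] (Matrix.SpecialLinearGroup.mapGL ℝ g) := rfl
  rw [h2, h3, this]
  simp

theorem Dn_eichlerInt (hf : IsCuspidalAll ((n : ℤ) + 1) f) (g : SL(2, ℤ)) :
    Dn n (eichlerInt n f g) = f := by
  rw [eichlerInt, bol_SL g⁻¹ n (isCuspidal_cuspPrim (hf g) n).mdiff, Dn_cuspPrim (hf g),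
    ← SlashAction.slash_mul, mul_inv_cancel, SlashAction.slash_one]


theorem SL_slash_eq_intGL (k : ℤ) (φ : ℍ → ℂ) (g : SL(2, ℤ)) (A : Matrix (Fin 2) (Fin 2) ℤ)
    (hA : 0 < A.det) (h : (g : Matrix (Fin 2) (Fin 2) ℤ) = A) :
    φ ∣[k] g = φ ∣[k] intGL A hA := by
  subst h
  have h1 : φ ∣[k] g = φ ∣[k] (Matrix.SpecialLinearGroup.mapGL ℝ g) := rfl
  rw [h1, intGL_coe_SL]

theorem eichlerInt_mul_T (hf : IsCuspidalAll ((n : ℤ) + 1) f) (g : SL(2, ℤ)) :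
    eichlerInt n f (g * ModularGroup.T) = eichlerInt n f g := by
  have hdet : 0 < (!![1, 1; 0, 1] : Matrix (Fin 2) (Fin 2) ℤ).det := by
    rw [upper_det]; norm_num
  have hT : ∀ (k : ℤ) (φ : ℍ → ℂ), φ ∣[k] ModularGroup.T = φ ∣[k] intGL !![1, 1; 0, 1] hdet :=
    fun k φ => SL_slash_eq_intGL k φ _ _ hdet ModularGroup.coe_T
  rw [eichlerInt, eichlerInt, SlashAction.slash_mul, hT,
    cuspPrim_slash_upper (hf g) n 1 1 1 one_pos one_pos hdet, ← hT]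
  simp only [mul_one, Int.cast_one, one_pow, one_smul]
  rw [← SlashAction.slash_mul, mul_inv_rev, mul_inv_cancel_left]


theorem eichlerInt_mul_left (γ g : SL(2, ℤ)) (hγ : f ∣[(n : ℤ) + 1] γ = f) :
    eichlerInt n f (γ * g) = (eichlerInt n f g) ∣[(1 : ℤ) - n] γ⁻¹ := by
  rw [eichlerInt, eichlerInt, SlashAction.slash_mul, hγ, mul_inv_rev, SlashAction.slash_mul]

theorem eichlerInt_add {f₁ f₂ : ℍ → ℂ} (h1 : IsCuspidalAll ((n : ℤ) + 1) f₁)
    (h2 : IsCuspidalAll ((n : ℤ) + 1) f₂) (g : SL(2, ℤ)) :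
    eichlerInt n (f₁ + f₂) g = eichlerInt n f₁ g + eichlerInt n f₂ g := by
  rw [eichlerInt, eichlerInt, eichlerInt, SlashAction.add_slash, cuspPrim_add (h1 g) (h2 g),
    SlashAction.add_slash]

theorem eichlerInt_smul (hf : IsCuspidalAll ((n : ℤ) + 1) f) (c : ℂ) (g : SL(2, ℤ)) :
    eichlerInt n (c • f) g = c • eichlerInt n f g := by
  rw [eichlerInt, eichlerInt, ModularForm.SL_smul_slash, cuspPrim_smul (hf g),
    ModularForm.SL_smul_slash]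

theorem intGL_congr {A B : Matrix (Fin 2) (Fin 2) ℤ} (h : A = B) (hA : 0 < A.det)
    (hB : 0 < B.det) : intGL A hA = intGL B hB := by
  subst h; rfl

theorem SL_det_pos (g : SL(2, ℤ)) : 0 < (g : Matrix (Fin 2) (Fin 2) ℤ).det := by
  rw [g.det_coe]; exact one_pos

/-- The Hecke-type transformation rule: if `A * g = g' * β` with `β` upper triangular then
`Φ_g(f ∣ A) = det(A)^n • Φ_{g'}(f) ∣[1-n] A`. -/
theorem eichlerInt_slash_intGL (hf : IsCuspidalAll ((n : ℤ) + 1) f)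
    (A : Matrix (Fin 2) (Fin 2) ℤ) (hA : 0 < A.det) (g g' : SL(2, ℤ)) (a b d : ℤ)
    (ha : 0 < a) (hd : 0 < d)
    (hAg : A * (g : Matrix (Fin 2) (Fin 2) ℤ) = (g' : Matrix (Fin 2) (Fin 2) ℤ) * !![a, b; 0, d]) :
    eichlerInt n (f ∣[(n : ℤ) + 1] intGL A hA) g =
      ((A.det : ℂ) ^ n) • ((eichlerInt n f g') ∣[(1 : ℤ) - n] intGL A hA) := by
  have hβ : 0 < (!![a, b; 0, d] : Matrix (Fin 2) (Fin 2) ℤ).det := by
    rw [upper_det]; exact mul_pos ha hd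
  -- determinant
  have hdetA : A.det = a * d := by
    have := congrArg Matrix.det hAg
    rw [Matrix.det_mul, Matrix.det_mul, g.det_coe, g'.det_coe, upper_det] at this
    linarith
  -- the key matrix identity in `GL (Fin 2) ℝ`
  have key : intGL A hA * Matrix.SpecialLinearGroup.mapGL ℝ g =
      Matrix.SpecialLinearGroup.mapGL ℝ g' * intGL !![a, b; 0, d] hβ := by
    have h1 : 0 < (A * (g : Matrix (Fin 2) (Fin 2) ℤ)).det := by
      rw [Matrix.det_mul, g.det_coe, mul_one]; exact hA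
    have h2 : 0 < ((g' : Matrix (Fin 2) (Fin 2) ℤ) * !![a, b; 0, d]).det := by
      rw [← hAg]; exact h1
    rw [← intGL_coe_SL g (SL_det_pos g), ← intGL_coe_SL g' (SL_det_pos g'),
      ← intGL_mul A _ hA (SL_det_pos g) h1, ← intGL_mul _ _ (SL_det_pos g') hβ h2]
    exact intGL_congr hAg h1 h2
  have key' : intGL !![a, b; 0, d] hβ * Matrix.SpecialLinearGroup.mapGL ℝ g⁻¹ =
      Matrix.SpecialLinearGroup.mapGL ℝ g'⁻¹ * intGL A hA := by
    rw [map_inv, map_inv, eq_inv_mul_iff_mul_eq, ← mul_assoc, ← key, mul_assoc,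
      mul_inv_cancel, mul_one]
  -- slash computations
  have hSL : ∀ (k : ℤ) (φ : ℍ → ℂ) (x : SL(2, ℤ)),
      φ ∣[k] x = φ ∣[k] (Matrix.SpecialLinearGroup.mapGL ℝ x) := fun _ _ _ => rfl
  have e1 : (f ∣[(n : ℤ) + 1] intGL A hA) ∣[(n : ℤ) + 1] g =
      (f ∣[(n : ℤ) + 1] g') ∣[(n : ℤ) + 1] intGL !![a, b; 0, d] hβ := by
    rw [hSL, hSL, ← SlashAction.slash_mul, ← SlashAction.slash_mul, key]
  have e2 : ∀ ψ : ℍ → ℂ, (ψ ∣[(1 : ℤ) - n] intGL !![a, b; 0, d] hβ) ∣[(1 : ℤ) - n] g⁻¹ =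
      (ψ ∣[(1 : ℤ) - n] g'⁻¹) ∣[(1 : ℤ) - n] intGL A hA := by
    intro ψ
    rw [hSL _ _ g⁻¹, hSL _ ψ g'⁻¹, ← SlashAction.slash_mul, ← SlashAction.slash_mul, key']
  rw [eichlerInt, e1, cuspPrim_slash_upper (hf g') n a b d ha hd hβ, ModularForm.SL_smul_slash,
    eichlerInt, e2, hdetA]

end

end Fermat.Agent.S22Lib
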