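import Mathlib
import Fermat.Prelude.Def_CuspForm_HeckeAlgebra
import Fermat.Agent.Lib.Helper2.CuspSturm

/-!
# Task B of the S22 project: degenerate weights
-/

set_option autoImplicit false

namespace Fermat.Agent.S22Lib

open UpperHalfPlane ModularForm
open scoped MatrixGroups

theorem cuspForm_Gamma0_eq_zero_of_odd (N : ℕ) [NeZero N] {k : ℤ} (hk : Odd k)
    (f : CuspForm (CongruenceSubgroup.Gamma0 N) k) : f = 0 := by
  have hmem : (-1 : SL(2, ℤ)) ∈ CongruenceSubgroup.Gamma0 N := by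
    rw [CongruenceSubgroup.Gamma0_mem]
    simp
  have hmem' : (Matrix.SpecialLinearGroup.mapGL ℝ (-1 : SL(2, ℤ))) ∈
      (CongruenceSubgroup.Gamma0 N : Subgroup (GL (Fin 2) ℝ)) :=
    Subgroup.mem_map_of_mem _ hmem
  have h1 := SlashInvariantForm.slash_action_eqn f _ hmem'
  ext τ
  have h2 := congrFun h1 τ
  have h3 : (⇑f ∣[k] (-1 : SL(2, ℤ))) τ = f τ := h2
  rw [ModularForm.SL_slash_apply] at h3
  have h4 : ((-1 : SL(2, ℤ)) • τ) = τ := by
    rw [ModularGroup.SL_neg_smul, one_smul]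
  have h5 : denom ((-1 : SL(2, ℤ)) : GL (Fin 2) ℝ) τ = -1 := by
    simp [denom]
  rw [h4, h5] at h3
  have h6 : ((-1 : ℂ)) ^ (-k) = -1 := by
    rw [zpow_neg, Odd.neg_one_zpow hk]
    norm_num
  rw [h6] at h3
  have h7 : f τ = 0 := by linear_combination (-1/2 : ℂ) * h3
  simpa using h7

theorem cuspForm_Gamma0_eq_zero_of_nonpos (N : ℕ) [NeZero N] {k : ℤ} (hk : k ≤ 0)
    (f : CuspForm (CongruenceSubgroup.Gamma0 N) k) : f = 0 := by
  refine Fermat.Agent.Lib.Helper2.cuspForm_Gamma0_eq_zero_of_small_index N ?_ f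
  have h1 : k * ((CongruenceSubgroup.Gamma0 N).index : ℤ) ≤ 0 :=
    mul_nonpos_of_nonpos_of_nonneg hk (Int.natCast_nonneg _)
  rw [Int.toNat_of_nonpos h1]

theorem moduleFinite_heckeAlgebra_of_forall_eq_zero (N : ℕ) [NeZero N] (k : ℤ) (S : Set ℕ)
    (h : ∀ f : CuspForm (CongruenceSubgroup.Gamma0 N) k, f = 0) :
    Module.Finite ℤ (CuspForm.heckeAlgebra N k S) := by
  have h1 : Subsingleton (CuspForm (CongruenceSubgroup.Gamma0 N) k) :=
    ⟨fun f g => by rw [h f, h g]⟩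
  have h2 : Subsingleton (Module.End ℂ (CuspForm (CongruenceSubgroup.Gamma0 N) k)) :=
    ⟨fun s t => LinearMap.ext fun x => Subsingleton.elim _ _⟩
  have h3 : Subsingleton (CuspForm.heckeAlgebra N k S) :=
    ⟨fun s t => Subtype.ext (Subsingleton.elim _ _)⟩
  exact inferInstance

end Fermat.Agent.S22Lib
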