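import Mathlib
import Fermat.Prelude.Def_CuspForm_HeckeAlgebra
import Fermat.Agent.Lib.S22.ZeroWeights

/-!
# Task M of the S22 project: holomorphic, `Γ₀(N)`-invariant of weight `≤ 0`,
vanishing at all cusps implies zero
-/

set_option autoImplicit false

open UpperHalfPlane hiding I
open Complex Derivative Polynomial Filter Function
open scoped Manifold Topology Real ModularForm MatrixGroups

namespace Fermat.Agent.S22Lib

theorem eq_zero_of_slash_invariant_of_nonpos (N : ℕ) [NeZero N] {k : ℤ} (hk : k ≤ 0)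
    (Φ : ℍ → ℂ) (hΦ : MDiff Φ)
    (hinv : ∀ γ ∈ CongruenceSubgroup.Gamma0 N, Φ ∣[k] γ = Φ)
    (hzero : ∀ g : SL(2, ℤ), IsZeroAtImInfty (Φ ∣[k] g)) : Φ = 0 := by
  let f : CuspForm (CongruenceSubgroup.Gamma0 N) k :=
    { toFun := Φ
      slash_action_eq' := by
        rintro _ ⟨γ, hγ, rfl⟩
        exact hinv γ hγ
      holo' := hΦ
      zero_at_cusps' := by
        intro c hc
        rw [Subgroup.IsArithmetic.isCusp_iff_isCusp_SL2Z] at hc
        rw [OnePoint.isZeroAt_iff_forall_SL2Z hc]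
        intro γ _
        exact hzero γ }
  have hf : f = 0 := cuspForm_Gamma0_eq_zero_of_nonpos N hk f
  have h2 : (⇑f : ℍ → ℂ) = 0 := by rw [hf]; rfl
  exact h2

end Fermat.Agent.S22Lib
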