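import Mathlib
import Fermat.Agent.Lib.S22.EichlerInt
import Fermat.Agent.Lib.S22.WeightNonpos

/-!
# Period polynomials

`periodPoly n f g h` is the polynomial of degree `< n` equal to `Φ_g(f) - Φ_h(f)`
(morally `∫_{g∞}^{h∞} f(w) (w - τ)^(n-1) dw` up to normalisation).
-/

set_option autoImplicit false

open UpperHalfPlane hiding I
open Complex Derivative Polynomial Filter Function
open scoped Manifold Topology Real ModularForm MatrixGroups

namespace Fermat.Agent.S22Lib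

noncomputable section

/-- difference of two Eichler integrals -/
def periodFun (n : ℕ) (f : ℍ → ℂ) (g h : SL(2, ℤ)) : ℍ → ℂ :=
  eichlerInt n f g - eichlerInt n f h

variable {n : ℕ} {f : ℍ → ℂ}

theorem exists_poly_periodFun (hf : IsCuspidalAll ((n : ℤ) + 1) f) (g h : SL(2, ℤ)) :
    ∃ P : ℂ[X], P.degree < n ∧ periodFun n f g h = polyFun P := by
  refine exists_poly_of_Dn_eq_zero n ((mdiff_eichlerInt hf g).sub (mdiff_eichlerInt hf h)) ?_
  rw [periodFun, Dn_sub (mdiff_eichlerInt hf g) (mdiff_eichlerInt hf h), Dn_eichlerInt hf,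
    Dn_eichlerInt hf, sub_self]

open Classical in
/-- the period polynomial -/
def periodPoly (n : ℕ) (f : ℍ → ℂ) (g h : SL(2, ℤ)) : ℂ[X] :=
  if hP : ∃ P : ℂ[X], P.degree < n ∧ periodFun n f g h = polyFun P then hP.choose else 0

theorem periodPoly_degree_lt (n : ℕ) (f : ℍ → ℂ) (g h : SL(2, ℤ)) :
    (periodPoly n f g h).degree < n := by
  rw [periodPoly]
  split_ifs with hP
  · exact hP.choose_spec.1
  · rw [degree_zero]; exact WithBot.bot_lt_coe n

theorem polyFun_periodPoly (hf : IsCuspidalAll ((n : ℤ) + 1) f) (g h : SL(2, ℤ)) :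
    polyFun (periodPoly n f g h) = periodFun n f g h := by
  rw [periodPoly, dif_pos (exists_poly_periodFun hf g h)]
  exact (exists_poly_periodFun hf g h).choose_spec.2.symm

theorem periodPoly_eq_of_polyFun_eq (hf : IsCuspidalAll ((n : ℤ) + 1) f) (g h : SL(2, ℤ))
    {P : ℂ[X]} (hP : polyFun P = periodFun n f g h) : periodPoly n f g h = P :=
  polyFun_injective ((polyFun_periodPoly hf g h).trans hP.symm)

theorem periodPoly_add_trans (hf : IsCuspidalAll ((n : ℤ) + 1) f) (g h l : SL(2, ℤ)) :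
    periodPoly n f g h + periodPoly n f h l = periodPoly n f g l := by
  symm
  refine periodPoly_eq_of_polyFun_eq hf g l ?_
  rw [polyFun_add, polyFun_periodPoly hf, polyFun_periodPoly hf]
  simp only [periodFun]
  abel

theorem periodPoly_mul_T (hf : IsCuspidalAll ((n : ℤ) + 1) f) (g : SL(2, ℤ)) :
    periodPoly n f g (g * ModularGroup.T) = 0 := by
  refine periodPoly_eq_of_polyFun_eq hf _ _ ?_
  rw [periodFun, eichlerInt_mul_T hf, sub_self]
  ext τ; simp

theorem periodPoly_add {f₁ f₂ : ℍ → ℂ} (h1 : IsCuspidalAll ((n : ℤ) + 1) f₁)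
    (h2 : IsCuspidalAll ((n : ℤ) + 1) f₂) (g h : SL(2, ℤ)) :
    periodPoly n (f₁ + f₂) g h = periodPoly n f₁ g h + periodPoly n f₂ g h := by
  refine periodPoly_eq_of_polyFun_eq (h1.add h2) g h ?_
  rw [polyFun_add, polyFun_periodPoly h1, polyFun_periodPoly h2]
  simp only [periodFun, eichlerInt_add h1 h2]
  abel

theorem periodPoly_smul (hf : IsCuspidalAll ((n : ℤ) + 1) f) (c : ℂ) (g h : SL(2, ℤ)) :
    periodPoly n (c • f) g h = c • periodPoly n f g h := by
  refine periodPoly_eq_of_polyFun_eq (hf.smul c) g h ?_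
  rw [polyFun_smul, polyFun_periodPoly hf]
  simp only [periodFun, eichlerInt_smul hf, smul_sub]

theorem periodPoly_sum {ι : Type*} (s : Finset ι) (F : ι → ℍ → ℂ)
    (hF : ∀ i ∈ s, IsCuspidalAll ((n : ℤ) + 1) (F i)) (g h : SL(2, ℤ)) :
    periodPoly n (∑ i ∈ s, F i) g h = ∑ i ∈ s, periodPoly n (F i) g h := by
  classical
  induction s using Finset.induction_on with
  | empty =>
    simp only [Finset.sum_empty]
    have h0 : IsCuspidalAll ((n : ℤ) + 1) (0 : ℍ → ℂ) := by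
      have := IsCuspidalAll.sum (k := (n : ℤ) + 1) (∅ : Finset ι) F (by simp)
      simpa using this
    have := periodPoly_smul h0 (0 : ℂ) g h
    simpa using this
  | insert i t hi ih =>
    rw [Finset.sum_insert hi, Finset.sum_insert hi,
      periodPoly_add (hF i (Finset.mem_insert_self i t))
        (IsCuspidalAll.sum t F fun j hj => hF j (Finset.mem_insert_of_mem hj)),
      ih fun j hj => hF j (Finset.mem_insert_of_mem hj)]


theorem sub_slash' {G : Type*} [Monoid G] [SlashAction ℤ G (ℍ → ℂ)] (k : ℤ) (g : G)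
    (a b : ℍ → ℂ) : (a - b) ∣[k] g = a ∣[k] g - b ∣[k] g := by
  rw [sub_eq_add_neg, SlashAction.add_slash, SlashAction.neg_slash, ← sub_eq_add_neg]

/-- slash of weight `1 - n` of a polynomial function of degree `< n` by an integer matrix -/
theorem polyFun_slash_intGL (n : ℕ) (A : Matrix (Fin 2) (Fin 2) ℤ) (hA : 0 < A.det) (P : ℂ[X])
    (hP : P.degree < n) :
    (polyFun P) ∣[(1 : ℤ) - n] intGL A hA = ((A.det : ℂ) ^ n)⁻¹ • polyFun (polyAct n A P) := by
  rcases Nat.eq_zero_or_pos n with rfl | hn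
  · have hP0 : P = 0 := by
      by_contra hne
      exact absurd (lt_of_le_of_lt (Polynomial.zero_le_degree_iff.mpr hne) hP) (by simp)
    subst hP0
    have h0 : polyFun (0 : ℂ[X]) = 0 := by ext τ; simp
    have h1 : polyAct 0 A 0 = 0 := by simp [polyAct]
    rw [h1, h0, SlashAction.zero_slash, smul_zero]
  ext τ
  have hdetpos : 0 < (intGL A hA).val.det := by
    rw [← Matrix.GeneralLinearGroup.val_det_apply]; exact intGL_det_pos A hA
  have hdetval : ((intGL A hA).val.det : ℂ) = (A.det : ℂ) := by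
    rw [← Matrix.GeneralLinearGroup.val_det_apply, intGL_det]; norm_cast
  have hdetℂ : (A.det : ℂ) ≠ 0 := by exact_mod_cast hA.ne'
  have hden : denom (intGL A hA) τ = (A 1 0 : ℂ) * (τ : ℂ) + (A 1 1 : ℂ) := by
    simp [denom, intGL_val]
  have hnum : num (intGL A hA) τ = (A 0 0 : ℂ) * (τ : ℂ) + (A 0 1 : ℂ) := by
    simp [num, intGL_val]
  have hz : (A 1 0 : ℂ) * (τ : ℂ) + (A 1 1 : ℂ) ≠ 0 := by
    rw [← hden]; exact denom_ne_zero _ τ
  rw [slash_apply_of_det_pos hdetpos, Pi.smul_apply, smul_eq_mul, polyFun_apply, polyFun_apply,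
    polyAct_eval n A P hP _ hz, coe_smul_of_det_pos (intGL_det_pos A hA), hnum, hden, hdetval]
  have e1 : (1 : ℤ) - (n : ℤ) - 1 = -(n : ℤ) := by ring
  have e2 : -((1 : ℤ) - (n : ℤ)) = ((n - 1 : ℕ) : ℤ) := by
    rw [Nat.cast_sub hn]; push_cast; ring
  rw [e1, e2, zpow_neg, zpow_natCast, zpow_natCast]
  ring

theorem polyFun_slash_SL (n : ℕ) (γ : SL(2, ℤ)) (P : ℂ[X]) (hP : P.degree < n) :
    (polyFun P) ∣[(1 : ℤ) - n] γ = polyFun (polyAct n (γ : Matrix (Fin 2) (Fin 2) ℤ) P) := by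
  rw [SL_slash_eq_intGL _ _ γ _ (SL_det_pos γ) rfl, polyFun_slash_intGL n _ _ P hP, γ.det_coe]
  simp

/-- equivariance of period polynomials under the invariance group of `f` -/
theorem periodPoly_mul_left (hf : IsCuspidalAll ((n : ℤ) + 1) f) (γ g h : SL(2, ℤ))
    (hγ : f ∣[(n : ℤ) + 1] γ = f) :
    periodPoly n f (γ * g) (γ * h) =
      polyAct n ((γ⁻¹ : SL(2, ℤ)) : Matrix (Fin 2) (Fin 2) ℤ) (periodPoly n f g h) := by
  refine periodPoly_eq_of_polyFun_eq hf _ _ ?_
  rw [← polyFun_slash_SL n γ⁻¹ _ (periodPoly_degree_lt n f g h), polyFun_periodPoly hf, periodFun,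
    periodFun, eichlerInt_mul_left γ g hγ, eichlerInt_mul_left γ h hγ, sub_slash']

/-- Hecke-type transformation of period polynomials -/
theorem periodPoly_slash_intGL (hf : IsCuspidalAll ((n : ℤ) + 1) f)
    (A : Matrix (Fin 2) (Fin 2) ℤ) (hA : 0 < A.det) (g g' h h' : SL(2, ℤ))
    (a b d a' b' d' : ℤ) (ha : 0 < a) (hd : 0 < d) (ha' : 0 < a') (hd' : 0 < d')
    (hAg : A * (g : Matrix (Fin 2) (Fin 2) ℤ) = (g' : Matrix (Fin 2) (Fin 2) ℤ) * !![a, b; 0, d])
    (hAh : A * (h : Matrix (Fin 2) (Fin 2) ℤ) =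
      (h' : Matrix (Fin 2) (Fin 2) ℤ) * !![a', b'; 0, d']) :
    periodPoly n (f ∣[(n : ℤ) + 1] intGL A hA) g h = polyAct n A (periodPoly n f g' h') := by
  have hdetℂ : ((A.det : ℂ) ^ n) ≠ 0 := pow_ne_zero _ (by exact_mod_cast hA.ne')
  refine periodPoly_eq_of_polyFun_eq (hf.slash_intGL A hA) _ _ ?_
  have h1 := polyFun_slash_intGL n A hA _ (periodPoly_degree_lt n f g' h')
  rw [polyFun_periodPoly hf] at h1
  rw [periodFun, eichlerInt_slash_intGL hf A hA g g' a b d ha hd hAg,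
    eichlerInt_slash_intGL hf A hA h h' a' b' d' ha' hd' hAh, ← smul_sub]
  have h2 : (eichlerInt n f g' ∣[(1 : ℤ) - n] intGL A hA) - (eichlerInt n f h' ∣[(1 : ℤ) - n] intGL A hA)
      = (periodFun n f g' h') ∣[(1 : ℤ) - n] intGL A hA := by
    rw [periodFun, sub_slash']
  rw [h2, h1, smul_smul, mul_inv_cancel₀ hdetℂ, one_smul]


/-- Separation: if all period polynomials of a `Γ₀(N)`-invariant `f` vanish then `f = 0`. -/
theorem eq_zero_of_periodPoly_eq_zero (N : ℕ) [NeZero N] (hn : 1 ≤ n)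
    (hf : IsCuspidalAll ((n : ℤ) + 1) f)
    (hinv : ∀ γ ∈ CongruenceSubgroup.Gamma0 N, f ∣[(n : ℤ) + 1] γ = f)
    (h0 : ∀ g h : SL(2, ℤ), periodPoly n f g h = 0) : f = 0 := by
  have hE : ∀ g, eichlerInt n f g = eichlerInt n f 1 := by
    intro g
    have := polyFun_periodPoly hf g 1
    rw [h0, periodFun] at this
    have h1 : polyFun (0 : ℂ[X]) = 0 := by ext τ; simp
    rw [h1] at this
    exact sub_eq_zero.mp this.symm
  set Φ := eichlerInt n f 1 with hΦdef
  have hΦ : MDiff Φ := mdiff_eichlerInt hf 1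
  have hinvΦ : ∀ γ ∈ CongruenceSubgroup.Gamma0 N, Φ ∣[(1 : ℤ) - n] γ = Φ := by
    intro γ hγ
    have h1 := eichlerInt_mul_left (n := n) γ⁻¹ 1 (hinv γ⁻¹ (inv_mem hγ))
    rw [mul_one, inv_inv, hE γ⁻¹] at h1
    exact h1.symm
  have hzero : ∀ g : SL(2, ℤ), IsZeroAtImInfty (Φ ∣[(1 : ℤ) - n] g) := by
    intro g
    have h1 : Φ ∣[(1 : ℤ) - n] g = cuspPrim n (f ∣[(n : ℤ) + 1] g) := by
      rw [← hE g, eichlerInt, ← SlashAction.slash_mul, inv_mul_cancel,
        SlashAction.slash_one]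
    rw [h1]
    exact (isCuspidal_cuspPrim (hf g) n).zero
  have hk : (1 : ℤ) - n ≤ 0 := by
    have : (1 : ℤ) ≤ n := by exact_mod_cast hn
    linarith
  have hΦ0 : Φ = 0 := eq_zero_of_slash_invariant_of_nonpos N hk Φ hΦ hinvΦ hzero
  have := Dn_eichlerInt hf 1
  rw [← hΦdef, hΦ0, Dn_zero_fun] at this
  exact this.symm

end

end Fermat.Agent.S22Lib
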