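import Mathlib

/-!
# Task A of the S22 project: abstract finiteness lemma

If a finitely generated `ℤ`-lattice `Λ` of linear functionals on a complex vector space `V`
separates points and is stable under precomposition with a set `gens` of endomorphisms, then the
`ℤ`-algebra generated by `gens` is a finitely generated `ℤ`-module.
-/

set_option autoImplicit false

namespace Fermat.Agent.S22Lib

theorem comp_mem_of_mem_adjoin {V : Type*} [AddCommGroup V] [Module ℂ V]
    (gens : Set (Module.End ℂ V)) (Λ : Submodule ℤ (Module.Dual ℂ V))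
    (hstable : ∀ t ∈ gens, ∀ l ∈ Λ, l ∘ₗ t ∈ Λ)
    {t : Module.End ℂ V} (ht : t ∈ Algebra.adjoin ℤ gens) :
    ∀ l ∈ Λ, l ∘ₗ t ∈ Λ := by
  induction ht using Algebra.adjoin_induction with
  | mem t ht => exact hstable t ht
  | algebraMap n =>
    intro l hl
    have : l ∘ₗ (algebraMap ℤ (Module.End ℂ V) n) = n • l := by
      ext v
      simp
    rw [this]
    exact Λ.smul_mem n hl
  | add s t _ _ hs ht =>
    intro l hl
    rw [LinearMap.comp_add]
    exact Λ.add_mem (hs l hl) (ht l hl)
  | mul s t _ _ hs ht =>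
    intro l hl
    have : l ∘ₗ (s * t) = (l ∘ₗ s) ∘ₗ t := rfl
    rw [this]
    exact ht _ (hs l hl)

theorem moduleFinite_adjoin_of_dual_lattice {V : Type*} [AddCommGroup V] [Module ℂ V]
    (gens : Set (Module.End ℂ V)) (Λ : Submodule ℤ (Module.Dual ℂ V)) (hfg : Λ.FG)
    (hstable : ∀ t ∈ gens, ∀ l ∈ Λ, l ∘ₗ t ∈ Λ)
    (hsep : ∀ v : V, (∀ l ∈ Λ, l v = 0) → v = 0) :
    Module.Finite ℤ (Algebra.adjoin ℤ gens) := by
  classical
  obtain ⟨s, hs⟩ := hfg
  have hsΛ : ∀ g ∈ s, g ∈ Λ := fun g hg => hs ▸ Submodule.subset_span hg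
  have : Module.Finite ℤ Λ := Module.Finite.iff_fg.mpr ⟨s, hs⟩
  have : IsNoetherian ℤ Λ := inferInstance
  -- the map `t ↦ (g ∘ t)_{g ∈ s}`
  let Ψ : (Algebra.adjoin ℤ gens) →ₗ[ℤ] (s → Λ) :=
    { toFun := fun t g => ⟨(g : Module.Dual ℂ V) ∘ₗ (t : Module.End ℂ V),
        comp_mem_of_mem_adjoin gens Λ hstable t.2 _ (hsΛ g g.2)⟩
      map_add' := by
        intro t t'
        funext g
        apply Subtype.ext
        simp [LinearMap.comp_add]
      map_smul' := by
        intro n t
        funext g
        apply Subtype.ext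
        ext v
        simp [zsmul_eq_mul] }
  have hΨ : Function.Injective Ψ := by
    rw [injective_iff_map_eq_zero]
    intro t ht
    apply Subtype.ext
    rw [ZeroMemClass.coe_zero]
    ext v
    rw [LinearMap.zero_apply]
    apply hsep
    intro l hl
    -- `l` is a `ℤ`-combination of elements of `s`
    rw [← hs] at hl
    refine Submodule.span_induction (p := fun l _ => l ((t : Module.End ℂ V) v) = 0)
      ?_ ?_ ?_ ?_ hl
    · intro g hg
      have h1 := congrFun ht ⟨g, hg⟩
      have h2 : (g : Module.Dual ℂ V) ∘ₗ (t : Module.End ℂ V) = 0 := by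
        have := congrArg Subtype.val h1
        simpa [Ψ] using this
      exact LinearMap.congr_fun h2 v
    · simp
    · intro x y _ _ hx hy
      rw [LinearMap.add_apply, hx, hy, add_zero]
    · intro n x _ hx
      rw [LinearMap.smul_apply, hx, smul_zero]
  exact Module.Finite.of_injective Ψ hΨ

end Fermat.Agent.S22Lib
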