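import Mathlib

/-!
# Task P of the S22 project: Manin's trick in abstract form

A family `lam g h j` of "modular symbols" indexed by pairs of elements of `SL(2, ℤ)` which is
additive, vanishes on `(g, g T)`, and is `Γ`-equivariant up to integral linear combinations
(`Γ` of finite index) spans a finitely generated `ℤ`-module.
-/

set_option autoImplicit false

open scoped MatrixGroups

namespace Fermat.Agent.S22Lib

theorem fg_span_of_modular_symbol_relations {L : Type*} [AddCommGroup L]
    (Γ : Subgroup SL(2, ℤ)) [Γ.FiniteIndex] {ι : Type*} [Finite ι]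
    (lam : SL(2, ℤ) → SL(2, ℤ) → ι → L)
    (h_add : ∀ g h l j, lam g h j + lam h l j = lam g l j)
    (h_T : ∀ g j, lam g (g * ModularGroup.T) j = 0)
    (h_equiv : ∀ γ ∈ Γ, ∀ g h j,
      lam (γ * g) (γ * h) j ∈ Submodule.span ℤ (Set.range (lam g h))) :
    (Submodule.span ℤ {x | ∃ g h j, x = lam g h j}).FG := by
  classical
  have : Finite (SL(2, ℤ) ⧸ Γ) := Subgroup.finite_quotient_of_finiteIndex
  -- the finitely many generators
  let gen : (SL(2, ℤ) ⧸ Γ) × ι → L := fun p =>
    lam (p.1.out)⁻¹ ((p.1.out)⁻¹ * ModularGroup.S) p.2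
  let Λ0 : Submodule ℤ L := Submodule.span ℤ (Set.range gen)
  have hΛ0 : Λ0.FG := Submodule.fg_span (Set.finite_range gen)
  -- every `g` is `γ * r` with `γ ∈ Γ` and `r` one of the representatives
  have hrep : ∀ g : SL(2, ℤ), ∃ γ ∈ Γ, ∃ q : SL(2, ℤ) ⧸ Γ, g = γ * (q.out)⁻¹ := by
    intro g
    let q : SL(2, ℤ) ⧸ Γ := QuotientGroup.mk g⁻¹
    have hq : (QuotientGroup.mk q.out : SL(2, ℤ) ⧸ Γ) = QuotientGroup.mk g⁻¹ :=
      QuotientGroup.out_eq' q
    have hmem : (q.out)⁻¹ * g⁻¹ ∈ Γ := QuotientGroup.eq.mp hq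
    refine ⟨((q.out)⁻¹ * g⁻¹)⁻¹, Γ.inv_mem hmem, q, ?_⟩
    group
  have h_self : ∀ g j, lam g g j = 0 := by
    intro g j
    have := h_add g g g j
    simpa using this
  -- the key claim
  have hC : ∀ w : SL(2, ℤ), ∀ g j, lam g (g * w) j ∈ Λ0 := by
    intro w
    have hw : w ∈ Subgroup.closure {ModularGroup.S, ModularGroup.T} := by
      rw [SpecialLinearGroup.SL2Z_generators]; exact Subgroup.mem_top w
    induction hw using Subgroup.closure_induction with
    | mem x hx =>
      intro g j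
      rcases hx with rfl | hx
      · obtain ⟨γ, hγ, q, rfl⟩ := hrep g
        have h1 := h_equiv γ hγ (q.out)⁻¹ ((q.out)⁻¹ * ModularGroup.S) j
        rw [mul_assoc]
        refine (Submodule.span_mono ?_) h1
        rintro _ ⟨i, rfl⟩
        exact ⟨(q, i), rfl⟩
      · rw [Set.mem_singleton_iff] at hx
        subst hx
        rw [h_T]
        exact Λ0.zero_mem
    | one =>
      intro g j
      rw [mul_one, h_self]
      exact Λ0.zero_mem
    | mul x y _ _ hx hy =>
      intro g j
      have h1 := h_add g (g * x) (g * x * y) j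
      rw [← mul_assoc, ← h1]
      exact Λ0.add_mem (hx g j) (hy (g * x) j)
    | inv x _ hx =>
      intro g j
      have h1 := h_add g (g * x⁻¹) g j
      rw [h_self] at h1
      have h2 : lam g (g * x⁻¹) j = - lam (g * x⁻¹) g j := eq_neg_of_add_eq_zero_left h1
      rw [h2]
      refine Λ0.neg_mem ?_
      have h3 := hx (g * x⁻¹) j
      rwa [inv_mul_cancel_right] at h3
  have hle : Submodule.span ℤ {x | ∃ g h j, x = lam g h j} ≤ Λ0 := by
    rw [Submodule.span_le]
    rintro _ ⟨g, h, j, rfl⟩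
    have := hC (g⁻¹ * h) g j
    rwa [mul_inv_cancel_left] at this
  have hge : Λ0 ≤ Submodule.span ℤ {x | ∃ g h j, x = lam g h j} := by
    refine Submodule.span_mono ?_
    rintro _ ⟨p, rfl⟩
    exact ⟨_, _, _, rfl⟩
  rw [le_antisymm hle hge]
  exact hΛ0

end Fermat.Agent.S22Lib
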