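import Mathlib
import Fermat.Prelude.Def_CuspForm_HeckeAlgebra
import Fermat.Agent.Lib.S22.PeriodPoly
import Fermat.Agent.Lib.S22.CuspFormCuspidal
import Fermat.Agent.Lib.S22.SymbolGeneration
import Fermat.Agent.Lib.S22.DualLattice

/-!
# The modular symbol lattice in the dual of `S_{n+1}(Γ₀(N))`
-/

set_option autoImplicit false

open UpperHalfPlane hiding I
open Complex Polynomial
open scoped Manifold Topology Real ModularForm MatrixGroups

namespace Fermat.Agent.S22Lib

noncomputable section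

variable (N : ℕ) [NeZero N] (n : ℕ)

theorem cuspForm_slash_eq (f : CuspForm (CongruenceSubgroup.Gamma0 N) ((n : ℤ) + 1))
    (γ : SL(2, ℤ)) (hγ : γ ∈ CongruenceSubgroup.Gamma0 N) :
    (⇑f) ∣[(n : ℤ) + 1] γ = ⇑f := by
  have hmem : (Matrix.SpecialLinearGroup.mapGL ℝ γ) ∈
      (CongruenceSubgroup.Gamma0 N : Subgroup (GL (Fin 2) ℝ)) :=
    Subgroup.mem_map_of_mem _ hγ
  exact SlashInvariantForm.slash_action_eqn f _ hmem

/-- the functional `f ↦ j`-th coefficient of the period polynomial of `f` -/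
def coeffFunctional (g h : SL(2, ℤ)) (j : ℕ) :
    Module.Dual ℂ (CuspForm (CongruenceSubgroup.Gamma0 N) ((n : ℤ) + 1)) where
  toFun f := (periodPoly n (⇑f) g h).coeff j
  map_add' f₁ f₂ := by
    rw [CuspForm.coe_add, periodPoly_add (isCuspidalAll_cuspForm N _ f₁)
      (isCuspidalAll_cuspForm N _ f₂), coeff_add]
  map_smul' c f := by
    rw [CuspForm.IsGLPos.coe_smul, periodPoly_smul (isCuspidalAll_cuspForm N _ f), coeff_smul,
      RingHom.id_apply]

@[simp] theorem coeffFunctional_apply (g h : SL(2, ℤ)) (j : ℕ)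
    (f : CuspForm (CongruenceSubgroup.Gamma0 N) ((n : ℤ) + 1)) :
    coeffFunctional N n g h j f = (periodPoly n (⇑f) g h).coeff j := rfl

/-- the modular symbol lattice -/
def symbolLattice :
    Submodule ℤ (Module.Dual ℂ (CuspForm (CongruenceSubgroup.Gamma0 N) ((n : ℤ) + 1))) :=
  Submodule.span ℤ {x | ∃ (g h : SL(2, ℤ)) (j : Fin n), x = coeffFunctional N n g h j}

theorem coeffFunctional_mem (g h : SL(2, ℤ)) (j : Fin n) :
    coeffFunctional N n g h j ∈ symbolLattice N n :=
  Submodule.subset_span ⟨g, h, j, rfl⟩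

/-- an integer combination of coefficient functionals lies in the lattice -/
theorem sum_mem_symbolLattice (g h : SL(2, ℤ)) (c : ℕ → ℤ)
    (l : Module.Dual ℂ (CuspForm (CongruenceSubgroup.Gamma0 N) ((n : ℤ) + 1)))
    (hl : ∀ f, l f = ∑ i ∈ Finset.range n, (c i : ℂ) * (periodPoly n (⇑f) g h).coeff i) :
    l ∈ Submodule.span ℤ (Set.range fun j : Fin n => coeffFunctional N n g h j) := by
  have : l = ∑ i : Fin n, c i • coeffFunctional N n g h i := by
    ext f
    rw [hl f, LinearMap.sum_apply, Finset.sum_range]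
    refine Finset.sum_congr rfl fun i _ => ?_
    rw [LinearMap.smul_apply, coeffFunctional_apply, zsmul_eq_mul]
  rw [this]
  exact Submodule.sum_mem _ fun i _ => Submodule.smul_mem _ _ (Submodule.subset_span ⟨i, rfl⟩)

theorem symbolLattice_fg : (symbolLattice N n).FG := by
  refine fg_span_of_modular_symbol_relations (CongruenceSubgroup.Gamma0 N)
    (fun g h (j : Fin n) => coeffFunctional N n g h j) ?_ ?_ ?_
  · intro g h l j
    ext f
    simp only [LinearMap.add_apply, coeffFunctional_apply]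
    rw [← coeff_add, periodPoly_add_trans (isCuspidalAll_cuspForm N _ f)]
  · intro g j
    ext f
    simp only [LinearMap.zero_apply, coeffFunctional_apply]
    rw [periodPoly_mul_T (isCuspidalAll_cuspForm N _ f), coeff_zero]
  · intro γ hγ g h j
    obtain ⟨M, hM⟩ := polyAct_coeff_int n ((γ⁻¹ : SL(2, ℤ)) : Matrix (Fin 2) (Fin 2) ℤ)
    refine sum_mem_symbolLattice N n g h (M j) _ fun f => ?_
    rw [coeffFunctional_apply, periodPoly_mul_left (isCuspidalAll_cuspForm N _ f) γ g h
      (cuspForm_slash_eq N n f γ hγ), hM]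


/-- coefficient functional of `f ∣ A` as an integer combination of coefficient functionals -/
theorem exists_coeff_slash_intGL (A : Matrix (Fin 2) (Fin 2) ℤ) (hA : 0 < A.det)
    (g h : SL(2, ℤ)) (j : ℕ) :
    ∃ (g' h' : SL(2, ℤ)) (c : ℕ → ℤ),
      ∀ f : CuspForm (CongruenceSubgroup.Gamma0 N) ((n : ℤ) + 1),
        (periodPoly n ((⇑f) ∣[(n : ℤ) + 1] intGL A hA) g h).coeff j =
          ∑ i ∈ Finset.range n, (c i : ℂ) * (periodPoly n (⇑f) g' h').coeff i := by
  have h1 : 0 < (A * (g : Matrix (Fin 2) (Fin 2) ℤ)).det := by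
    rw [Matrix.det_mul, g.det_coe, mul_one]; exact hA
  have h2 : 0 < (A * (h : Matrix (Fin 2) (Fin 2) ℤ)).det := by
    rw [Matrix.det_mul, h.det_coe, mul_one]; exact hA
  obtain ⟨g', a, b, d, ha, hd, hg'⟩ := exists_SL2Z_mul_eq_upper _ h1
  obtain ⟨h', a', b', d', ha', hd', hh'⟩ := exists_SL2Z_mul_eq_upper _ h2
  obtain ⟨M, hM⟩ := polyAct_coeff_int n A
  refine ⟨g', h', M j, fun f => ?_⟩
  rw [periodPoly_slash_intGL (isCuspidalAll_cuspForm N _ f) A hA g g' h h' a b d a' b' d'
    ha hd ha' hd' hg' hh', hM]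

/-- If an endomorphism `t` of the space of cusp forms is given on functions by a finite sum of
slashes by integer matrices of positive determinant, the symbol lattice is stable under `t`. -/
theorem comp_mem_symbolLattice {ι : Type*} (s : Finset ι) (A : ι → Matrix (Fin 2) (Fin 2) ℤ)
    (hA : ∀ i, 0 < (A i).det)
    (t : Module.End ℂ (CuspForm (CongruenceSubgroup.Gamma0 N) ((n : ℤ) + 1)))
    (ht : ∀ f, (⇑(t f) : ℍ → ℂ) = ∑ i ∈ s, (⇑f) ∣[(n : ℤ) + 1] intGL (A i) (hA i))
    (l : Module.Dual ℂ (CuspForm (CongruenceSubgroup.Gamma0 N) ((n : ℤ) + 1)))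
    (hl : l ∈ symbolLattice N n) : l ∘ₗ t ∈ symbolLattice N n := by
  classical
  refine Submodule.span_induction (p := fun l _ => l ∘ₗ t ∈ symbolLattice N n) ?_ ?_ ?_ ?_ hl
  · rintro _ ⟨g, h, j, rfl⟩
    -- choose the data for each index
    choose g' h' c hc using fun i => exists_coeff_slash_intGL N n (A i) (hA i) g h (j : ℕ)
    have key : coeffFunctional N n g h j ∘ₗ t =
        ∑ i ∈ s, ∑ m : Fin n, c i m • coeffFunctional N n (g' i) (h' i) m := by
      ext f
      rw [LinearMap.comp_apply, coeffFunctional_apply, ht f,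
        periodPoly_sum s _ (fun i _ => (isCuspidalAll_cuspForm N _ f).slash_intGL (A i) (hA i)),
        Polynomial.finset_sum_coeff, LinearMap.sum_apply]
      refine Finset.sum_congr rfl fun i _ => ?_
      rw [hc i f, LinearMap.sum_apply, Finset.sum_range]
      refine Finset.sum_congr rfl fun m _ => ?_
      rw [LinearMap.smul_apply, coeffFunctional_apply, zsmul_eq_mul]
    rw [key]
    exact Submodule.sum_mem _ fun i _ => Submodule.sum_mem _ fun m _ =>
      Submodule.smul_mem _ _ (coeffFunctional_mem N n _ _ m)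
  · rw [LinearMap.zero_comp]; exact Submodule.zero_mem _
  · intro x y _ _ hx hy
    rw [LinearMap.add_comp]; exact Submodule.add_mem _ hx hy
  · intro a x _ hx
    have : (a • x) ∘ₗ t = a • (x ∘ₗ t) := by
      ext f; simp
    rw [this]; exact Submodule.smul_mem _ _ hx

/-- The symbol lattice separates points (for `n ≥ 1`). -/
theorem eq_zero_of_forall_symbolLattice (hn : 1 ≤ n)
    (f : CuspForm (CongruenceSubgroup.Gamma0 N) ((n : ℤ) + 1))
    (hf : ∀ l ∈ symbolLattice N n, l f = 0) : f = 0 := by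
  have h0 : ∀ g h : SL(2, ℤ), periodPoly n (⇑f) g h = 0 := by
    intro g h
    ext j
    rw [coeff_zero]
    by_cases hj : j < n
    · exact hf _ (coeffFunctional_mem N n g h ⟨j, hj⟩)
    · exact Polynomial.coeff_eq_zero_of_degree_lt
        (lt_of_lt_of_le (periodPoly_degree_lt n _ g h) (by exact_mod_cast not_lt.mp hj))
  have := eq_zero_of_periodPoly_eq_zero N hn (isCuspidalAll_cuspForm N _ f)
    (fun γ hγ => cuspForm_slash_eq N n f γ hγ) h0
  exact DFunLike.coe_injective this

end

end Fermat.Agent.S22Lib
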