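import Mathlib
import Fermat.Prelude.Def_CuspForm_HeckeAlgebra
import Fermat.Agent.Lib.S22.Lattice
import Fermat.Agent.Lib.S22.ZeroWeights

/-!
# Finiteness of the Hecke algebra over `ℤ`
-/

set_option autoImplicit false

open UpperHalfPlane hiding I
open Complex Polynomial
open scoped Manifold Topology Real ModularForm MatrixGroups

namespace Fermat.Agent.S22Lib

noncomputable section

variable (N : ℕ) [NeZero N] (n : ℕ)

theorem det_heckeU_matrix {p : ℕ} (hp : p ≠ 0) (j : ℕ) :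
    0 < (!![1, (j : ℤ); 0, (p : ℤ)] : Matrix (Fin 2) (Fin 2) ℤ).det := by
  rw [upper_det, one_mul]; exact_mod_cast Nat.pos_of_ne_zero hp

theorem det_heckeDiag_matrix {p : ℕ} (hp : p ≠ 0) :
    0 < (!![(p : ℤ), 0; 0, 1] : Matrix (Fin 2) (Fin 2) ℤ).det := by
  rw [upper_det, mul_one]; exact_mod_cast Nat.pos_of_ne_zero hp

theorem heckeULin_comp_mem {q : ℕ} (hq : q ≠ 0) (hqN : q ∣ N)
    (l : Module.Dual ℂ (CuspForm (CongruenceSubgroup.Gamma0 N) ((n : ℤ) + 1)))
    (hl : l ∈ symbolLattice N n) :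
    l ∘ₗ (CuspForm.heckeULin ((n : ℤ) + 1) hqN) ∈ symbolLattice N n := by
  refine comp_mem_symbolLattice N n (Finset.range q) (fun j : ℕ => !![1, (j : ℤ); 0, (q : ℤ)])
    (fun j => det_heckeU_matrix hq j) _ (fun f => ?_) l hl
  rw [CuspForm.coe_heckeULin_apply, ModularForm.heckeU_def]
  refine Finset.sum_congr rfl fun j _ => ?_
  rw [heckeMatrix_eq_intGL hq j (det_heckeU_matrix hq j)]

theorem heckeTLin_comp_mem {p : ℕ} (hp : p.Prime) (hpN : ¬ p ∣ N)
    (l : Module.Dual ℂ (CuspForm (CongruenceSubgroup.Gamma0 N) ((n : ℤ) + 1)))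
    (hl : l ∈ symbolLattice N n) :
    l ∘ₗ (CuspForm.heckeTLin ((n : ℤ) + 1) hp hpN) ∈ symbolLattice N n := by
  have hp0 : p ≠ 0 := hp.ne_zero
  refine comp_mem_symbolLattice N n (Finset.range (p + 1))
    (fun j : ℕ => if j < p then !![1, (j : ℤ); 0, (p : ℤ)] else !![(p : ℤ), 0; 0, 1])
    (fun j => by
      by_cases hj : j < p
      · simp only [hj, if_true]; exact det_heckeU_matrix hp0 j
      · simp only [hj, if_false]; exact det_heckeDiag_matrix hp0) _ (fun f => ?_) l hl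
  rw [CuspForm.coe_heckeTLin_apply, ModularForm.heckeT_def, Finset.sum_range_succ]
  congr 1
  · refine Finset.sum_congr rfl fun j hj => ?_
    have hj' : j < p := Finset.mem_range.mp hj
    rw [heckeMatrix_eq_intGL hp0 j (det_heckeU_matrix hp0 j)]
    congr 1
    exact intGL_congr (by simp [hj']) _ _
  · rw [heckeDiagMatrix_eq_intGL hp0 (det_heckeDiag_matrix hp0)]
    congr 1
    exact intGL_congr (by simp) _ _

/-- main case: weight `n + 1 ≥ 2` -/
theorem moduleFinite_heckeAlgebra_succ (hn : 1 ≤ n) (S : Set ℕ) :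
    Module.Finite ℤ (CuspForm.heckeAlgebra N ((n : ℤ) + 1) S) := by
  refine moduleFinite_adjoin_of_dual_lattice (CuspForm.heckeGenerators N ((n : ℤ) + 1) S)
    (symbolLattice N n) (symbolLattice_fg N n) ?_ (eq_zero_of_forall_symbolLattice N n hn)
  rintro t (⟨ℓ, hℓ, hℓN, -, rfl⟩ | ⟨q, hqN, hq, -, rfl⟩) l hl
  · exact heckeTLin_comp_mem N n hℓ hℓN l hl
  · exact heckeULin_comp_mem N n hq.ne_zero hqN l hl

/-- **Finiteness of the Hecke algebra over `ℤ`**, all levels, weights and sets `S`. -/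
theorem moduleFinite_heckeAlgebra (k : ℤ) (S : Set ℕ) :
    Module.Finite ℤ (CuspForm.heckeAlgebra N k S) := by
  rcases le_or_gt k 0 with hk | hk
  · exact moduleFinite_heckeAlgebra_of_forall_eq_zero N k S
      (cuspForm_Gamma0_eq_zero_of_nonpos N hk)
  · obtain ⟨n, rfl⟩ : ∃ n : ℕ, k = (n : ℤ) + 1 := ⟨(k - 1).toNat, by omega⟩
    rcases Nat.eq_zero_or_pos n with rfl | hn
    · exact moduleFinite_heckeAlgebra_of_forall_eq_zero N _ S
        (cuspForm_Gamma0_eq_zero_of_odd N (by norm_num))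
    · exact moduleFinite_heckeAlgebra_succ N n hn S

end

end Fermat.Agent.S22Lib
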